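import Mathlib
import Fermat.Prelude.Def_AlgebraicCurve_DivisorClassGroup
import Fermat.Agent.S24.FFModel
import Fermat.Agent.S24.FFPlaces
import Fermat.Agent.S24.FFBridge
import Fermat.Agent.S18.Trans.ConstGeneric
import Fermat.Agent.S18.Trans.ConstK
import Fermat.Agent.S18.Gauss.Separable

/-!
# S37 (FIN-k): finiteness of fibres on the places of a function field, any characteristic

`F/K` a field with a transcendental `x` such that `F/K(x)` is finite separable.  Then `x` has
finitely many zeros and poles among the places of `F/K`, every fibre `x = c` is finite, and for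
`K` algebraically closed every place is a pole of `x` or lies in exactly one fibre.

Instantiated at the special fibre `F_{M,k}` of the modular curve (`char k = ℓ ∤ M`) and `x = j̄`.
-/

set_option autoImplicit false

open AlgebraicCurve IsDedekindDomain Polynomial IntermediateField Fermat.Agent.S24

namespace Fermat.Agent.S37.Support.FibreFiniteK

open Fermat.Agent.S18.Trans

variable {K F : Type*} [Field K] [Field F] [Algebra K F]

theorem ne_zero_of_transcendental' {x : F} (hx : Transcendental K x) : x ≠ 0 := by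
  rintro rfl
  exact hx isAlgebraic_zero

/-- the zeros of a transcendental element are finitely many (any characteristic). -/
theorem zeros_finite (x : F) (hx : Transcendental K x) [FiniteDimensional K⟮x⟯ F]
    [Algebra.IsSeparable K⟮x⟯ F] : {v : Place K F | 0 < v.ord x}.Finite := by
  classical
  have : Fact (Transcendental K x) := ⟨hx⟩
  have := ConstGeneric.isDedekindDomain_Bof K x
  have := ConstGeneric.isFractionRing_Bof K x
  have hx0 : x ≠ 0 := ne_zero_of_transcendental' hx
  set b : Bof K x := algebraMap (PolyOf K x) (Bof K x) (PolyOf.coord K x) with hbdef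
  have hb : algebraMap (Bof K x) F b = x := by
    rw [hbdef, ← IsScalarTower.algebraMap_apply, PolyOf.algebraMap_coord]
  have hb0 : b ≠ 0 := by
    intro h
    rw [h, map_zero] at hb
    exact hx0 hb.symm
  have hI : Ideal.span ({b} : Set (Bof K x)) ≠ 0 := by
    rw [Ne, Ideal.zero_eq_bot, Ideal.span_singleton_eq_bot]
    exact hb0
  have hfin := Ideal.finite_factors hI
  refine (hfin.image (placeOfPrime (K := K) (F := F))).subset ?_
  intro v hv
  have hv' : 0 < v.ord x := hv
  have hxv : x ∈ v.toValuationSubring := (mem_iff_ord_nonneg v hx0).mpr hv'.le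
  refine ⟨primeOfPlace v (Bof_le_of_mem K x v hxv), ?_, placeOfPrime_primeOfPlace v _⟩
  show (primeOfPlace v (Bof_le_of_mem K x v hxv)).asIdeal ∣ Ideal.span {b}
  rw [Ideal.dvd_span_singleton, mem_primeOfPlace_iff]
  obtain ⟨hmem, hmax⟩ := (ord_pos_iff_mem_maximalIdeal v hx0).mp hv'
  rw [IsLocalRing.mem_maximalIdeal, mem_nonunits_iff] at hmax
  have : toPlaceRing v (Bof_le_of_mem K x v hxv) b = ⟨x, hmem⟩ := Subtype.ext hb
  rw [this]
  exact hmax

/-! ### shifting and inverting the coordinate -/

theorem adjoin_sub_const_eq (x : F) (c : K) : K⟮x - algebraMap K F c⟯ = K⟮x⟯ := by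
  apply le_antisymm
  · rw [adjoin_simple_le_iff]
    exact sub_mem (mem_adjoin_simple_self K x) (IntermediateField.algebraMap_mem _ c)
  · rw [adjoin_simple_le_iff]
    have h := add_mem (mem_adjoin_simple_self K (x - algebraMap K F c))
      (IntermediateField.algebraMap_mem K⟮x - algebraMap K F c⟯ c)
    rwa [sub_add_cancel] at h

theorem transcendental_sub_const {x : F} (hx : Transcendental K x) (c : K) :
    Transcendental K (x - algebraMap K F c) := by
  intro h
  apply hx
  have := h.add (isAlgebraic_algebraMap (R := K) (A := F) c)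
  rwa [sub_add_cancel] at this

theorem finiteDimensional_of_eq {E₁ E₂ : IntermediateField K F} (h : E₁ = E₂)
    [FiniteDimensional E₁ F] : FiniteDimensional E₂ F := by
  subst h; infer_instance

theorem isSeparable_of_eq {E₁ E₂ : IntermediateField K F} (h : E₁ = E₂)
    [Algebra.IsSeparable E₁ F] : Algebra.IsSeparable E₂ F := by
  subst h; infer_instance

/-- every fibre `x = c` is finite. -/
theorem fibre_finite (x : F) (hx : Transcendental K x) [FiniteDimensional K⟮x⟯ F]
    [Algebra.IsSeparable K⟮x⟯ F] (c : K) :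
    {v : Place K F | 0 < v.ord (x - algebraMap K F c)}.Finite := by
  have h1 : FiniteDimensional K⟮x - algebraMap K F c⟯ F :=
    finiteDimensional_of_eq (adjoin_sub_const_eq x c).symm
  have h2 : Algebra.IsSeparable K⟮x - algebraMap K F c⟯ F :=
    isSeparable_of_eq (adjoin_sub_const_eq x c).symm
  exact zeros_finite (x - algebraMap K F c) (transcendental_sub_const hx c)

/-- the poles of `x` are finitely many. -/
theorem poles_finite (x : F) (hx : Transcendental K x) [FiniteDimensional K⟮x⟯ F]
    [Algebra.IsSeparable K⟮x⟯ F] : {v : Place K F | v.ord x < 0}.Finite := by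
  have h1 : FiniteDimensional K⟮x⁻¹⟯ F :=
    finiteDimensional_of_eq (ConstGeneric.adjoin_inv_eq' x).symm
  have h2 : Algebra.IsSeparable K⟮x⁻¹⟯ F :=
    isSeparable_of_eq (ConstGeneric.adjoin_inv_eq' x).symm
  have h := zeros_finite x⁻¹ (ConstGeneric.transcendental_inv' hx)
  refine h.subset ?_
  intro v hv
  have hv' : v.ord x < 0 := hv
  show 0 < v.ord x⁻¹
  rw [Place.ord_inv]
  omega

/-! ### values at places (algebraically closed constants) -/

theorem ord_algebraMap_eq_zero (v : Place K F) {c : K} (hc : c ≠ 0) :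
    v.ord (algebraMap K F c) = 0 := by
  have hc' : algebraMap K F c ≠ 0 := by
    rwa [Ne, map_eq_zero]
  have h1 : 0 ≤ v.ord (algebraMap K F c) :=
    (mem_iff_ord_nonneg v hc').mp (v.algebraMap_mem' c)
  have hci : algebraMap K F c⁻¹ ≠ 0 := by
    rw [Ne, map_eq_zero]; exact inv_ne_zero hc
  have h2 : 0 ≤ v.ord (algebraMap K F c⁻¹) :=
    (mem_iff_ord_nonneg v hci).mp (v.algebraMap_mem' c⁻¹)
  rw [map_inv₀, Place.ord_inv] at h2
  omega

/-- a place lies in at most one fibre. -/
theorem value_unique (x : F) (v : Place K F) {c c' : K}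
    (h : 0 < v.ord (x - algebraMap K F c)) (h' : 0 < v.ord (x - algebraMap K F c')) :
    c = c' := by
  by_contra hne
  have h0 : x - algebraMap K F c ≠ 0 := by
    intro h0; rw [h0, Place.ord_zero] at h; exact lt_irrefl _ h
  have h0' : x - algebraMap K F c' ≠ 0 := by
    intro h0; rw [h0, Place.ord_zero] at h'; exact lt_irrefl _ h'
  obtain ⟨hm, hmax⟩ := (ord_pos_iff_mem_maximalIdeal v h0).mp h
  obtain ⟨hm', hmax'⟩ := (ord_pos_iff_mem_maximalIdeal v h0').mp h'
  have hsub := Ideal.sub_mem _ hmax' hmax
  have hcc : c - c' ≠ 0 := sub_ne_zero.mpr hne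
  have hd0 : algebraMap K F (c - c') ≠ 0 := by rwa [Ne, map_eq_zero]
  have hpos : 0 < v.ord (algebraMap K F (c - c')) := by
    rw [ord_pos_iff_mem_maximalIdeal v hd0]
    refine ⟨v.algebraMap_mem' _, ?_⟩
    have : (⟨algebraMap K F (c - c'), v.algebraMap_mem' _⟩ : v.toValuationSubring) =
        ⟨x - algebraMap K F c', hm'⟩ - ⟨x - algebraMap K F c, hm⟩ := by
      apply Subtype.ext
      simp only [map_sub]
      show _ = (x - algebraMap K F c') - (x - algebraMap K F c)
      ring
    rw [this]
    exact hsub
  rw [ord_algebraMap_eq_zero v hcc] at hpos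
  exact lt_irrefl _ hpos

/-- if no value is taken at `v` then every nonzero polynomial in `x` is a `v`-unit. -/
theorem ord_aeval_eq_zero [IsAlgClosed K] (x : F) (v : Place K F)
    (h : ∀ c : K, x - algebraMap K F c ≠ 0 ∧ v.ord (x - algebraMap K F c) = 0)
    (p : K[X]) (hp : p ≠ 0) : aeval x p ≠ 0 ∧ v.ord (aeval x p) = 0 := by
  have hsp := (IsAlgClosed.splits p).eq_prod_roots
  have hlc : p.leadingCoeff ≠ 0 := leadingCoeff_ne_zero.mpr hp
  have hprod : ∀ s : Multiset K, (s.map (fun a => x - algebraMap K F a)).prod ≠ 0 ∧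
      v.ord ((s.map (fun a => x - algebraMap K F a)).prod) = 0 := by
    intro s
    induction s using Multiset.induction_on with
    | empty => simp
    | cons a s ih =>
      rw [Multiset.map_cons, Multiset.prod_cons]
      refine ⟨mul_ne_zero (h a).1 ih.1, ?_⟩
      rw [Place.ord_mul v (h a).1 ih.1, (h a).2, ih.2, add_zero]
  have hev : aeval x p = algebraMap K F p.leadingCoeff *
      (p.roots.map (fun a => x - algebraMap K F a)).prod := by
    conv_lhs => rw [hsp]
    rw [map_mul, aeval_C, map_multiset_prod, Multiset.map_map]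
    congr 2
    apply Multiset.map_congr rfl
    intro a _
    simp
  have hc0 : algebraMap K F p.leadingCoeff ≠ 0 := by rwa [Ne, map_eq_zero]
  rw [hev]
  refine ⟨mul_ne_zero hc0 (hprod _).1, ?_⟩
  rw [Place.ord_mul v hc0 (hprod _).1, ord_algebraMap_eq_zero v hlc, (hprod _).2, add_zero]

/-- **totality of values**: over algebraically closed constants every place is a pole of `x` or
lies in a fibre `x = c`. -/
theorem exists_value [IsAlgClosed K] (x : F) (hx : Transcendental K x)
    [Algebra.IsAlgebraic K⟮x⟯ F] (v : Place K F) :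
    v.ord x < 0 ∨ ∃ c : K, 0 < v.ord (x - algebraMap K F c) := by
  by_contra hcon
  rw [not_or, not_lt, not_exists] at hcon
  obtain ⟨hnn, hno⟩ := hcon
  have hx0 : x ≠ 0 := ne_zero_of_transcendental' hx
  have hxv : x ∈ v.toValuationSubring := (mem_iff_ord_nonneg v hx0).mpr hnn
  have hall : ∀ c : K, x - algebraMap K F c ≠ 0 ∧ v.ord (x - algebraMap K F c) = 0 := by
    intro c
    have h0 : x - algebraMap K F c ≠ 0 := ne_zero_of_transcendental' (transcendental_sub_const hx c)
    refine ⟨h0, ?_⟩
    have hmem : x - algebraMap K F c ∈ v.toValuationSubring :=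
      sub_mem hxv (v.algebraMap_mem' c)
    have h1 := (mem_iff_ord_nonneg v h0).mp hmem
    have h2 := hno c
    omega
  -- `K(x) ⊆ O_v`
  have hKx : ∀ z : K⟮x⟯, (z : F) ∈ v.toValuationSubring := by
    intro z
    obtain ⟨r, s, hz⟩ := (mem_adjoin_simple_iff K (z : F)).mp z.2
    by_cases hz0 : (z : F) = 0
    · rw [hz0]; exact v.toValuationSubring.zero_mem
    have hr : aeval x r ≠ 0 := by
      intro hr; rw [hr, zero_div] at hz; exact hz0 hz
    have hs : aeval x s ≠ 0 := by
      intro hs; rw [hs, div_zero] at hz; exact hz0 hz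
    have hr' : r ≠ 0 := by rintro rfl; simp at hr
    have hs' : s ≠ 0 := by rintro rfl; simp at hs
    rw [mem_iff_ord_nonneg v hz0, hz, div_eq_mul_inv,
      Place.ord_mul v hr (inv_ne_zero hs), Place.ord_inv,
      (ord_aeval_eq_zero x v hall r hr').2, (ord_aeval_eq_zero x v hall s hs').2]
    simp
  -- hence `F ⊆ O_v`
  apply v.ne_top'
  refine SetLike.ext fun y => ⟨fun _ => ValuationSubring.mem_top y, fun _ => ?_⟩
  let φ : K⟮x⟯ →+* v.toValuationSubring :=
    (algebraMap K⟮x⟯ F).codRestrict v.toValuationSubring.toSubring hKx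
  obtain ⟨p, hpm, hp0⟩ := (Algebra.IsAlgebraic.isAlgebraic (R := K⟮x⟯) y).isIntegral
  have hint : IsIntegral v.toValuationSubring y := by
    refine ⟨p.map φ, hpm.map φ, ?_⟩
    rw [Polynomial.eval₂_map]
    exact hp0
  obtain ⟨z, hz⟩ := IsIntegrallyClosed.isIntegral_iff.mp hint
  rw [← hz]
  exact z.2

/-! ### the special fibre of the modular curve -/

section Modular

open ModularCurve Fermat.Agent.S18.Gauss

variable {ℓ : ℕ} [Fact ℓ.Prime] (k : Type*) [Field k] [CharP k ℓ] (M : ℕ) [NeZero M]

/-- the fibre `j̄ = c` on the places of `F_{M,k}` is finite (`ℓ ∤ M`). -/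
theorem finite_fibre_jBar (hℓM : ¬ ℓ ∣ M) (c : k) :
    {Q : Place k (modularFunctionFieldFullC k M) |
      0 < Q.ord (jBar k M - algebraMap k (modularFunctionFieldFullC k M) c)}.Finite := by
  have h1 := Separable.finiteDimensional_full (ℓ := ℓ) (k := k) (N := M) hℓM
  have h2 := Separable.isSeparable_full (ℓ := ℓ) (k := k) (N := M) hℓM
  exact fibre_finite (jBar k M) (transcendental_jBar k M) c

/-- the zeros of `j̄` on the places of `F_{M,k}` are finitely many. -/
theorem finite_zeros_jBar (hℓM : ¬ ℓ ∣ M) :
    {Q : Place k (modularFunctionFieldFullC k M) | 0 < Q.ord (jBar k M)}.Finite := by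
  have h1 := Separable.finiteDimensional_full (ℓ := ℓ) (k := k) (N := M) hℓM
  have h2 := Separable.isSeparable_full (ℓ := ℓ) (k := k) (N := M) hℓM
  exact zeros_finite (jBar k M) (transcendental_jBar k M)

/-- the poles of `j̄` (the cusps) on the places of `F_{M,k}` are finitely many. -/
theorem finite_poles_jBar (hℓM : ¬ ℓ ∣ M) :
    {Q : Place k (modularFunctionFieldFullC k M) | Q.ord (jBar k M) < 0}.Finite := by
  have h1 := Separable.finiteDimensional_full (ℓ := ℓ) (k := k) (N := M) hℓM
  have h2 := Separable.isSeparable_full (ℓ := ℓ) (k := k) (N := M) hℓM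
  exact poles_finite (jBar k M) (transcendental_jBar k M)

/-- every place of `F_{M,k}` is a cusp or has a `j̄`-value (`k` algebraically closed). -/
theorem exists_jval [IsAlgClosed k] (hℓM : ¬ ℓ ∣ M)
    (Q : Place k (modularFunctionFieldFullC k M)) :
    Q.ord (jBar k M) < 0 ∨
      ∃ c : k, 0 < Q.ord (jBar k M - algebraMap k (modularFunctionFieldFullC k M) c) := by
  have h1 := Separable.finiteDimensional_full (ℓ := ℓ) (k := k) (N := M) hℓM
  exact exists_value (jBar k M) (transcendental_jBar k M) Q

/-- the `j̄`-value of a place of `F_{M,k}` is unique. -/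
theorem jval_unique (Q : Place k (modularFunctionFieldFullC k M)) {c c' : k}
    (h : 0 < Q.ord (jBar k M - algebraMap k (modularFunctionFieldFullC k M) c))
    (h' : 0 < Q.ord (jBar k M - algebraMap k (modularFunctionFieldFullC k M) c')) : c = c' :=
  value_unique (jBar k M) Q h h'

/-- a place with a `j̄`-value is not a cusp. -/
theorem not_pole_of_jval (Q : Place k (modularFunctionFieldFullC k M)) {c : k}
    (h : 0 < Q.ord (jBar k M - algebraMap k (modularFunctionFieldFullC k M) c)) :
    ¬ Q.ord (jBar k M) < 0 := by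
  intro hneg
  have h0 : jBar k M - algebraMap k (modularFunctionFieldFullC k M) c ≠ 0 := by
    intro h0; rw [h0, Place.ord_zero] at h; exact lt_irrefl _ h
  have hx0 : jBar k M ≠ 0 := ne_zero_of_transcendental' (transcendental_jBar k M)
  have hmem : jBar k M - algebraMap k (modularFunctionFieldFullC k M) c ∈ Q.toValuationSubring :=
    (mem_iff_ord_nonneg Q h0).mpr h.le
  have : jBar k M ∈ Q.toValuationSubring := by
    have := add_mem hmem (Q.algebraMap_mem' c)
    rwa [sub_add_cancel] at this
  have := (mem_iff_ord_nonneg Q hx0).mp this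
  omega

/-- the places over a finite set `S` of `j̄`-values (`none` = the cusps) form a finite set. -/
theorem exists_finset_fibres (hℓM : ¬ ℓ ∣ M) (S : Finset (Option k)) :
    ∃ T : Finset (Place k (modularFunctionFieldFullC k M)), ∀ Q, Q ∈ T ↔
      ((none ∈ S ∧ Q.ord (jBar k M) < 0) ∨
        ∃ c : k, some c ∈ S ∧
          0 < Q.ord (jBar k M - algebraMap k (modularFunctionFieldFullC k M) c)) := by
  classical
  let fib : Option k → Set (Place k (modularFunctionFieldFullC k M)) := fun s =>
    match s with
    | none => {Q | Q.ord (jBar k M) < 0}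
    | some c => {Q | 0 < Q.ord (jBar k M - algebraMap k (modularFunctionFieldFullC k M) c)}
  have hfib : ∀ s, (fib s).Finite := by
    intro s
    cases s with
    | none => exact finite_poles_jBar k M hℓM
    | some c => exact finite_fibre_jBar k M hℓM c
  have hfin : (⋃ s ∈ (S : Set (Option k)), fib s).Finite :=
    Set.Finite.biUnion (Finset.finite_toSet S) (fun s _ => hfib s)
  refine ⟨hfin.toFinset, fun Q => ?_⟩
  rw [Set.Finite.mem_toFinset, Set.mem_iUnion₂]
  constructor
  · rintro ⟨s, hs, hQ⟩
    cases s with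
    | none => exact Or.inl ⟨hs, hQ⟩
    | some c => exact Or.inr ⟨c, hs, hQ⟩
  · rintro (⟨hs, hQ⟩ | ⟨c, hs, hQ⟩)
    · exact ⟨none, hs, hQ⟩
    · exact ⟨some c, hs, hQ⟩

end Modular

end Fermat.Agent.S37.Support.FibreFiniteK
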