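import Mathlib
import Fermat.Prelude.Def_AlgebraicCurve_DivisorClassGroup
import Fermat.Prelude.Def_FLTPrelim_Ramification
import Fermat.Agent.S37.Support.FibreFiniteK
import Fermat.Agent.S18.Trans.LiesOver

/-!
# S37 (GOOD-k): the inputs of `exists_good` on the special fibre

* `exists_zero`, `exists_fibre`, `exists_pole` : for `x` transcendental with `F/K(x)` finite
  separable, every value `c : K` (and `∞`) is taken at some place of `F/K`;
* `exists_pow_eq_self` : every element of the residue field of a valuation ring of `ℚ̄` over `ℓ`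
  has a finite Frobenius orbit;
* `exists_frobStable` : every finite set of `j̄`-values lies in a finite Frobenius-stable one.
-/

set_option autoImplicit false

open AlgebraicCurve IsDedekindDomain Polynomial IntermediateField Fermat.Agent.S24

namespace Fermat.Agent.S37.Support.GoodSetK

open Fermat.Agent.S18.Trans Fermat.Agent.S37.Support.FibreFiniteK

section Surj

variable {K F : Type*} [Field K] [Field F] [Algebra K F]

/-- `1/x` is not integral over `K[x]` for `x` transcendental. -/
theorem not_isIntegral_inv (x : F) (hx : Transcendental K x) :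
    ¬ IsIntegral (PolyOf K x) x⁻¹ := by
  intro hint
  have : Fact (Transcendental K x) := ⟨hx⟩
  have hx0 : x ≠ 0 := ne_zero_of_transcendental' hx
  -- move to `K(x)`
  have hmem : x⁻¹ ∈ K⟮x⟯ := inv_mem (mem_adjoin_simple_self K x)
  have hint' : IsIntegral (PolyOf K x) (⟨x⁻¹, hmem⟩ : K⟮x⟯) := by
    rw [← isIntegral_algebraMap_iff (B := F) (algebraMap K⟮x⟯ F).injective]
    exact hint
  obtain ⟨q, hq⟩ := IsIntegrallyClosed.isIntegral_iff.mp hint'
  have hq' : algebraMap (PolyOf K x) F q = x⁻¹ := by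
    rw [IsScalarTower.algebraMap_apply (PolyOf K x) K⟮x⟯ F, hq]
    rfl
  let q' : K[X] := q
  have hq'' : aeval x q' = x⁻¹ := hq'
  have h1 : aeval x ((X : K[X]) * q' - 1) = 0 := by
    rw [map_sub, map_mul, aeval_X, map_one, hq'', mul_inv_cancel₀ hx0, sub_self]
  have h2 : (X : K[X]) * q' - 1 = 0 := by
    by_contra hne
    exact hx ⟨_, hne, h1⟩
  have h3 := congrArg (Polynomial.eval 0) h2
  simp at h3

/-- a transcendental element has a zero (any characteristic). -/
theorem exists_zero (x : F) (hx : Transcendental K x) [FiniteDimensional K⟮x⟯ F]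
    [Algebra.IsSeparable K⟮x⟯ F] : ∃ v : Place K F, 0 < v.ord x := by
  classical
  have : Fact (Transcendental K x) := ⟨hx⟩
  have := ConstGeneric.isDedekindDomain_Bof K x
  have := ConstGeneric.isFractionRing_Bof K x
  have hx0 : x ≠ 0 := ne_zero_of_transcendental' hx
  set b : Bof K x := algebraMap (PolyOf K x) (Bof K x) (PolyOf.coord K x) with hbdef
  have hb : algebraMap (Bof K x) F b = x := by
    rw [hbdef, ← IsScalarTower.algebraMap_apply, PolyOf.algebraMap_coord]
  have hb0 : b ≠ 0 := by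
    intro h
    rw [h, map_zero] at hb
    exact hx0 hb.symm
  have hnu : ¬ IsUnit b := by
    rintro ⟨u, hu⟩
    apply not_isIntegral_inv x hx
    have h1 : algebraMap (Bof K x) F (↑u⁻¹ : Bof K x) = x⁻¹ := by
      apply eq_inv_of_mul_eq_one_left
      have h2 : algebraMap (Bof K x) F (↑u⁻¹ * b) = 1 := by
        rw [← hu, Units.inv_mul, map_one]
      rwa [map_mul, hb] at h2
    rw [← h1]
    exact (↑u⁻¹ : Bof K x).2
  obtain ⟨m, hm, hbm⟩ := exists_max_ideal_of_mem_nonunits (mem_nonunits_iff.mpr hnu)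
  have hm0 : m ≠ ⊥ := by
    intro h
    rw [h, Ideal.mem_bot] at hbm
    exact hb0 hbm
  let P : HeightOneSpectrum (Bof K x) := ⟨m, hm.isPrime, hm0⟩
  refine ⟨placeOfPrime (K := K) (F := F) P, ?_⟩
  rw [ord_placeOfPrime P x hx0]
  have h : P.valuation F (algebraMap (Bof K x) F b) < 1 :=
    (P.valuation_lt_one_iff_mem (K := F) b).mpr hbm
  rw [hb] at h
  have hv0 : P.valuation F x ≠ 0 := (Valuation.ne_zero_iff _).mpr hx0
  rw [Left.neg_pos_iff, ← WithZero.log_one, WithZero.log_lt_log hv0 one_ne_zero]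
  exact h

/-- every value `c` is taken. -/
theorem exists_fibre (x : F) (hx : Transcendental K x) [FiniteDimensional K⟮x⟯ F]
    [Algebra.IsSeparable K⟮x⟯ F] (c : K) :
    ∃ v : Place K F, 0 < v.ord (x - algebraMap K F c) := by
  have h1 : FiniteDimensional K⟮x - algebraMap K F c⟯ F :=
    finiteDimensional_of_eq (adjoin_sub_const_eq x c).symm
  have h2 : Algebra.IsSeparable K⟮x - algebraMap K F c⟯ F :=
    isSeparable_of_eq (adjoin_sub_const_eq x c).symm
  exact exists_zero (x - algebraMap K F c) (transcendental_sub_const hx c)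

/-- `x` has a pole. -/
theorem exists_pole (x : F) (hx : Transcendental K x) [FiniteDimensional K⟮x⟯ F]
    [Algebra.IsSeparable K⟮x⟯ F] : ∃ v : Place K F, v.ord x < 0 := by
  have h1 : FiniteDimensional K⟮x⁻¹⟯ F :=
    finiteDimensional_of_eq (ConstGeneric.adjoin_inv_eq' x).symm
  have h2 : Algebra.IsSeparable K⟮x⁻¹⟯ F :=
    isSeparable_of_eq (ConstGeneric.adjoin_inv_eq' x).symm
  obtain ⟨v, hv⟩ := exists_zero x⁻¹ (ConstGeneric.transcendental_inv' hx)
  refine ⟨v, ?_⟩
  rw [Place.ord_inv] at hv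
  omega

end Surj

/-! ### finite Frobenius orbits in the residue field -/

section Frob

variable {ℓ : ℕ} [Fact ℓ.Prime]

/-- an element of a field of characteristic `ℓ` killed by an integer polynomial which is nonzero
mod `ℓ` has a finite Frobenius orbit. -/
theorem exists_pow_eq_self_of_root {k : Type*} [Field k] [CharP k ℓ] (x : k) (p : ℤ[X])
    (hp : p.map (Int.castRingHom (ZMod ℓ)) ≠ 0) (hroot : p.eval₂ (Int.castRingHom k) x = 0) :
    ∃ n : ℕ, 0 < n ∧ x ^ (ℓ ^ n) = x := by
  letI : Algebra (ZMod ℓ) k := ZMod.algebra k ℓ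
  have halg : IsAlgebraic (ZMod ℓ) x := by
    refine ⟨p.map (Int.castRingHom (ZMod ℓ)), hp, ?_⟩
    rw [aeval_def, eval₂_map]
    have : (algebraMap (ZMod ℓ) k).comp (Int.castRingHom (ZMod ℓ)) = Int.castRingHom k :=
      RingHom.ext_int _ _
    rw [this]
    exact hroot
  have hfd : FiniteDimensional (ZMod ℓ) (ZMod ℓ)⟮x⟯ :=
    IntermediateField.adjoin.finiteDimensional halg.isIntegral
  have hfin : Finite (ZMod ℓ)⟮x⟯ := Module.finite_of_finite (ZMod ℓ)
  have : Fintype (ZMod ℓ)⟮x⟯ := Fintype.ofFinite _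
  set n := Module.finrank (ZMod ℓ) (ZMod ℓ)⟮x⟯ with hn
  have hnpos : 0 < n := Module.finrank_pos
  have hcard : Fintype.card (ZMod ℓ)⟮x⟯ = ℓ ^ n := by
    rw [Module.card_eq_pow_finrank (K := ZMod ℓ) (V := (ZMod ℓ)⟮x⟯), ZMod.card]
  refine ⟨n, hnpos, ?_⟩
  have h := FiniteField.pow_card (⟨x, mem_adjoin_simple_self (ZMod ℓ) x⟩ : (ZMod ℓ)⟮x⟯)
  rw [hcard] at h
  exact congrArg Subtype.val h

/-- a nonzero integer polynomial has a constant multiple-free part which is nonzero mod `ℓ`. -/
theorem exists_primitive_root {L : Type*} [Field L] [CharZero L] (a : L) (ha : IsAlgebraic ℤ a) :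
    ∃ p : ℤ[X], p.map (Int.castRingHom (ZMod ℓ)) ≠ 0 ∧ p.eval₂ (Int.castRingHom L) a = 0 := by
  obtain ⟨p, hp0, hpa⟩ := ha
  refine ⟨p.primPart, ?_, ?_⟩
  · intro hmap
    have hdvd : C ((ℓ : ℕ) : ℤ) ∣ p.primPart := by
      rw [C_dvd_iff_dvd_coeff]
      intro i
      have := congrArg (fun q => q.coeff i) hmap
      simp only [coeff_map, coeff_zero, eq_intCast] at this
      exact (ZMod.intCast_zmod_eq_zero_iff_dvd _ _).mp this
    have hu := (isPrimitive_iff_isUnit_of_C_dvd.mp p.isPrimitive_primPart) _ hdvd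
    rw [Int.isUnit_iff] at hu
    have h2 := (Fact.out : ℓ.Prime).two_le
    omega
  · have h1 : aeval a p = aeval a (C p.content * p.primPart) := by
      rw [← p.eq_C_content_mul_primPart]
    rw [hpa, map_mul, aeval_C] at h1
    have hc : algebraMap ℤ L p.content ≠ 0 := by
      rw [Ne, eq_intCast, Int.cast_eq_zero, content_eq_zero_iff]
      exact hp0
    have h2 := (mul_eq_zero.mp h1.symm).resolve_left hc
    rw [aeval_def] at h2
    have : algebraMap ℤ L = Int.castRingHom L := RingHom.ext_int _ _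
    rwa [this] at h2

/-- **finite Frobenius orbits**: every element of the residue field of a valuation ring over `ℓ`
of a field algebraic over `ℚ` satisfies `x ^ (ℓ ^ n) = x` for some `n > 0`. -/
theorem exists_pow_eq_self_of_isAlgebraic {L : Type*} [Field L] [CharZero L]
    (A : ValuationSubring L) (hA : A.LiesOverPrime ℓ) (halg : ∀ a : L, IsAlgebraic ℤ a)
    (x : IsLocalRing.ResidueField A) : ∃ n : ℕ, 0 < n ∧ x ^ (ℓ ^ n) = x := by
  have : CharP (IsLocalRing.ResidueField A) ℓ := LiesOver.charP_residueField hA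
  obtain ⟨a, rfl⟩ := IsLocalRing.residue_surjective x
  obtain ⟨p, hp, hpa⟩ := exists_primitive_root (ℓ := ℓ) (a : L) (halg a)
  refine exists_pow_eq_self_of_root _ p hp ?_
  have h1 : p.eval₂ (Int.castRingHom A) a = 0 := by
    apply Subtype.val_injective
    have h2 := hom_eval₂ p (Int.castRingHom A) A.subtype a
    have h3 : A.subtype.comp (Int.castRingHom A) = Int.castRingHom L := RingHom.ext_int _ _
    rw [h3] at h2
    show A.subtype (p.eval₂ (Int.castRingHom A) a) = 0
    rw [h2]
    exact hpa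
  have h2 := hom_eval₂ p (Int.castRingHom A) (IsLocalRing.residue A) a
  have h3 : (IsLocalRing.residue A).comp (Int.castRingHom A) =
      Int.castRingHom (IsLocalRing.ResidueField A) := RingHom.ext_int _ _
  rw [h3, h1, map_zero] at h2
  exact h2.symm

theorem isAlgebraic_int_Kb (a : AlgebraicClosure ℚ) : IsAlgebraic ℤ a := by
  have halg : Algebra.IsAlgebraic ℚ (AlgebraicClosure ℚ) := AlgebraicClosure.isAlgebraic ℚ
  exact (IsFractionRing.isAlgebraic_iff ℤ ℚ (AlgebraicClosure ℚ)).mpr
    (Algebra.IsAlgebraic.isAlgebraic a)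

/-- finite Frobenius orbits in the residue field of a valuation ring of `ℚ̄` over `ℓ`. -/
theorem exists_pow_eq_self (A : ValuationSubring (AlgebraicClosure ℚ)) (hA : A.LiesOverPrime ℓ)
    (x : IsLocalRing.ResidueField A) : ∃ n : ℕ, 0 < n ∧ x ^ (ℓ ^ n) = x :=
  exists_pow_eq_self_of_isAlgebraic A hA isAlgebraic_int_Kb x

end Frob

/-! ### Frobenius-stable finite sets of values -/

section Stable

variable {ℓ : ℕ} [Fact ℓ.Prime] {k : Type*} [Field k] [CharP k ℓ]

omit [Fact ℓ.Prime] [CharP k ℓ] in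
theorem pow_pow_add_period {x : k} {n : ℕ} (hx : x ^ (ℓ ^ n) = x) (q r : ℕ) :
    x ^ (ℓ ^ (n * q + r)) = x ^ (ℓ ^ r) := by
  induction q with
  | zero => simp
  | succ q ih =>
    have : n * (q + 1) + r = n + (n * q + r) := by ring
    rw [this, pow_add, pow_mul, hx, ih]

omit [Fact ℓ.Prime] [CharP k ℓ] in
theorem exists_lt_period {x : k} {n : ℕ} (hn : 0 < n) (hx : x ^ (ℓ ^ n) = x) (i : ℕ) :
    ∃ j < n, x ^ (ℓ ^ i) = x ^ (ℓ ^ j) := by
  refine ⟨i % n, Nat.mod_lt _ hn, ?_⟩
  conv_lhs => rw [← Nat.div_add_mod i n]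
  exact pow_pow_add_period hx _ _

theorem pow_prime_injective : Function.Injective (fun y : k => y ^ ℓ) := by
  intro a b h
  exact frobenius_inj k ℓ h

/-- **Frobenius-stable hulls**: if every element of `k` has a finite Frobenius orbit, every finite
set of values (`none` = the cusp value) lies in a finite set containing `none` and stable under
`x ↦ x ^ ℓ` in both directions. -/
theorem exists_frobStable (hper : ∀ x : k, ∃ n : ℕ, 0 < n ∧ x ^ (ℓ ^ n) = x)
    (S₀ : Finset (Option k)) :
    ∃ S : Finset (Option k), S₀ ⊆ S ∧ none ∈ S ∧ ∀ x : k, some x ∈ S ↔ some (x ^ ℓ) ∈ S := by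
  classical
  choose n hn hxn using hper
  let orbit : k → Finset k := fun x => (Finset.range (n x)).image (fun i => x ^ (ℓ ^ i))
  let S : Finset (Option k) :=
    insert none ((S₀.biUnion fun s => s.elim ∅ orbit).image some)
  have hmem : ∀ y : k, some y ∈ S ↔ ∃ x, some x ∈ S₀ ∧ ∃ i < n x, y = x ^ (ℓ ^ i) := by
    intro y
    simp only [S, Finset.mem_insert, reduceCtorEq, false_or, Finset.mem_image, Option.some.injEq,
      exists_eq_right, Finset.mem_biUnion]
    constructor
    · rintro ⟨s, hs, hy⟩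
      cases s with
      | none => simp at hy
      | some x =>
        simp only [Option.elim_some, orbit, Finset.mem_image, Finset.mem_range] at hy
        obtain ⟨i, hi, rfl⟩ := hy
        exact ⟨x, hs, i, hi, rfl⟩
    · rintro ⟨x, hs, i, hi, rfl⟩
      refine ⟨some x, hs, ?_⟩
      simp only [Option.elim_some, orbit, Finset.mem_image, Finset.mem_range]
      exact ⟨i, hi, rfl⟩
  refine ⟨S, ?_, Finset.mem_insert_self _ _, ?_⟩
  · intro s hs
    cases s with
    | none => exact Finset.mem_insert_self _ _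
    | some x =>
      rw [hmem]
      exact ⟨x, hs, 0, hn x, by simp⟩
  · intro y
    rw [hmem, hmem]
    constructor
    · rintro ⟨x, hs, i, _, rfl⟩
      obtain ⟨j, hj, hij⟩ := exists_lt_period (hn x) (hxn x) (i + 1)
      refine ⟨x, hs, j, hj, ?_⟩
      rw [← hij, pow_succ, pow_mul]
    · rintro ⟨x, hs, i, hi, hy⟩
      cases i with
      | zero =>
        refine ⟨x, hs, n x - 1, Nat.sub_lt (hn x) one_pos, ?_⟩
        apply pow_prime_injective (ℓ := ℓ)
        show y ^ ℓ = (x ^ (ℓ ^ (n x - 1))) ^ ℓ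
        rw [hy, pow_zero, pow_one, ← pow_mul, ← pow_succ, Nat.sub_add_cancel (hn x), hxn x]
      | succ j =>
        refine ⟨x, hs, j, by omega, ?_⟩
        apply pow_prime_injective (ℓ := ℓ)
        show y ^ ℓ = (x ^ (ℓ ^ j)) ^ ℓ
        rw [hy, ← pow_mul, ← pow_succ]

end Stable

/-! ### the special fibre of the modular curve -/

section Modular

open ModularCurve Fermat.Agent.S18.Gauss

variable {ℓ : ℕ} [Fact ℓ.Prime] (k : Type*) [Field k] [CharP k ℓ] (M : ℕ) [NeZero M]

/-- every `j̄`-value is taken on the special fibre. -/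
theorem exists_place_jBar_eq (hℓM : ¬ ℓ ∣ M) (c : k) :
    ∃ Q : Place k (modularFunctionFieldFullC k M),
      0 < Q.ord (jBar k M - algebraMap k (modularFunctionFieldFullC k M) c) := by
  have h1 := Separable.finiteDimensional_full (ℓ := ℓ) (k := k) (N := M) hℓM
  have h2 := Separable.isSeparable_full (ℓ := ℓ) (k := k) (N := M) hℓM
  exact exists_fibre (jBar k M) (transcendental_jBar k M) c

/-- the special fibre has a cusp. -/
theorem exists_pole_jBar (hℓM : ¬ ℓ ∣ M) :
    ∃ Q : Place k (modularFunctionFieldFullC k M), Q.ord (jBar k M) < 0 := by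
  have h1 := Separable.finiteDimensional_full (ℓ := ℓ) (k := k) (N := M) hℓM
  have h2 := Separable.isSeparable_full (ℓ := ℓ) (k := k) (N := M) hℓM
  exact exists_pole (jBar k M) (transcendental_jBar k M)

end Modular

/-- **Frobenius-stable hulls in the residue field of a valuation ring of `ℚ̄` over `ℓ`.** -/
theorem exists_frobStable_residue {ℓ : ℕ} [Fact ℓ.Prime] (A : ValuationSubring (AlgebraicClosure ℚ))
    (hA : A.LiesOverPrime ℓ) (S₀ : Finset (Option (IsLocalRing.ResidueField A))) :
    ∃ S : Finset (Option (IsLocalRing.ResidueField A)), S₀ ⊆ S ∧ none ∈ S ∧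
      ∀ x : IsLocalRing.ResidueField A, some x ∈ S ↔ some (x ^ ℓ) ∈ S := by
  have : CharP (IsLocalRing.ResidueField A) ℓ := LiesOver.charP_residueField hA
  exact exists_frobStable (ℓ := ℓ) (exists_pow_eq_self A hA) S₀

end Fermat.Agent.S37.Support.GoodSetK
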