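import Mathlib
import Fermat.Prelude.Def_AlgebraicCurve_BaseChangeGalois
import Fermat.Agent.S24.FFDeriv
import Fermat.Agent.S24.FFApprox
import Fermat.Agent.S24.FFHurwitzGlue
import Fermat.Agent.S37.BaseChange.Approx
import Fermat.Agent.S37.Galois.RationalFix

/-!
# S37 (SC2): the value of a function at a place and its reduction

`val P t : Option K` is the value of `t : F` at the place `P` of `F / K` (`none` if `t` has a pole,
or a non-rational value).  For a valuation subring `A` of `K`, `bar A P t : Option k_A` is the
reduction of the value (`none` if the value is not `A`-integral, e.g. at a pole).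

We prove the behaviour under semilinear automorphisms fixing `t`; in the arithmetic situation:
inertia fixes `bar`, a Frobenius lift raises it to the `ℓ`-th power.
-/

set_option autoImplicit false

namespace Fermat.Agent.S37.Support.JVal

open AlgebraicCurve IsLocalRing
open Fermat.Agent.S24

noncomputable section

section Generic

variable {K F : Type*} [Field K] [Field F] [Algebra K F]

open Classical in
/-- the value of `t` at `P`: `some c` iff `t - c` vanishes at `P`. -/
def val (P : Place K F) (t : F) : Option K :=
  if h : ∃ c : K, 0 < P.ord (t - algebraMap K F c) then some h.choose else none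

theorem val_eq_some_iff {P : Place K F} {t : F} {c : K} :
    val P t = some c ↔ 0 < P.ord (t - algebraMap K F c) := by
  unfold val
  split_ifs with h
  · constructor
    · intro hc
      rw [Option.some.injEq] at hc
      rw [← hc]
      exact h.choose_spec
    · intro hc
      rw [Option.some.injEq]
      exact Fermat.Agent.S37.BaseChange.Approx.eq_of_ord_sub_pos P t h.choose_spec hc
  · constructor
    · intro hc
      cases hc
    · intro hc
      exact absurd ⟨c, hc⟩ h

theorem val_eq_none_iff {P : Place K F} {t : F} :
    val P t = none ↔ ∀ c : K, ¬ 0 < P.ord (t - algebraMap K F c) := by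
  constructor
  · intro h c hc
    rw [val_eq_some_iff.mpr hc] at h
    cases h
  · intro h
    cases hv : val P t with
    | none => rfl
    | some c => exact absurd (val_eq_some_iff.mp hv) (h c)

theorem ord_nonneg_of_val_eq_some {P : Place K F} {t : F} {c : K} (h : val P t = some c) :
    0 ≤ P.ord t :=
  FFApprox.ord_nonneg_of_ord_sub_pos P t c (val_eq_some_iff.mp h)

theorem val_eq_none_of_ord_neg {P : Place K F} {t : F} (h : P.ord t < 0) : val P t = none := by
  rw [val_eq_none_iff]
  intro c hc
  have := FFApprox.ord_nonneg_of_ord_sub_pos P t c hc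
  omega

/-- if the residue field is `K` and `t` is not constant, `val P t = none` exactly at the poles. -/
theorem val_eq_none_iff_ord_neg {P : Place K F} {t : F} (hres : FFGlue.HRes P)
    (ht : ∀ c : K, t ≠ algebraMap K F c) : val P t = none ↔ P.ord t < 0 := by
  refine ⟨fun h => ?_, val_eq_none_of_ord_neg⟩
  by_contra hnn
  rw [not_lt] at hnn
  obtain ⟨c, hc | hc⟩ := hres t (FFDeriv.mem_of_ord_nonneg P hnn)
  · exact ht c hc
  · exact (val_eq_none_iff.mp h) c hc

theorem exists_val_eq_some {P : Place K F} {t : F} (hres : FFGlue.HRes P)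
    (ht : ∀ c : K, t ≠ algebraMap K F c) (h : 0 ≤ P.ord t) : ∃ c : K, val P t = some c := by
  cases hv : val P t with
  | none =>
    have := (val_eq_none_iff_ord_neg hres ht).mp hv
    omega
  | some c => exact ⟨c, rfl⟩

/-- **Transport by a semilinear automorphism fixing `t`**. -/
theorem val_smul (g : SemilinearAut K F) (P : Place K F) (t : F) (ht : g • t = t) :
    val (g • P) t = (val P t).map (SemilinearAut.baseAut g) := by
  have key : ∀ (h : SemilinearAut K F) (Q : Place K F) (c : K), h • t = t → val Q t = some c →
      val (h • Q) t = some (SemilinearAut.baseAut h c) := by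
    intro h Q c hht hc
    rw [val_eq_some_iff] at hc ⊢
    have e : h • (t - algebraMap K F c) = t - algebraMap K F (SemilinearAut.baseAut h c) := by
      rw [smul_sub, hht, SemilinearAut.smul_algebraMap]
    rw [← e, SemilinearAut.ord_smul]
    exact hc
  cases hv : val P t with
  | some c => rw [key g P c ht hv, Option.map_some]
  | none =>
    rw [Option.map_none]
    cases hv' : val (g • P) t with
    | none => rfl
    | some c' =>
      exfalso
      have ht' : g⁻¹ • t = t := by
        conv_lhs => rw [← ht]
        exact inv_smul_smul g t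
      have := key g⁻¹ (g • P) c' ht' hv'
      rw [inv_smul_smul, hv] at this
      cases this

/-! ### reduction of values -/

variable (A : ValuationSubring K)

open Classical in
/-- reduction of a value modulo the maximal ideal of `A` (`none` if not integral). -/
def red : Option K → Option (ResidueField A)
  | none => none
  | some c => if h : c ∈ A then some (residue A ⟨c, h⟩) else none

@[simp] theorem red_none : red A none = none := rfl

theorem red_some_of_mem {c : K} (h : c ∈ A) : red A (some c) = some (residue A ⟨c, h⟩) := by
  simp only [red, dif_pos h]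

theorem red_some_of_notMem {c : K} (h : c ∉ A) : red A (some c) = none := by
  simp only [red, dif_neg h]

theorem red_eq_some_iff {s : Option K} {x : ResidueField A} :
    red A s = some x ↔ ∃ (c : K) (h : c ∈ A), s = some c ∧ residue A ⟨c, h⟩ = x := by
  constructor
  · intro hs
    cases s with
    | none => cases hs
    | some c =>
      by_cases h : c ∈ A
      · rw [red_some_of_mem A h, Option.some.injEq] at hs
        exact ⟨c, h, rfl, hs⟩
      · rw [red_some_of_notMem A h] at hs
        cases hs
  · rintro ⟨c, h, rfl, rfl⟩
    exact red_some_of_mem A h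

/-- reduction commutes with an automorphism of `K` preserving `A` and inducing `φ` on the residue
field. -/
theorem red_map (τ : K ≃+* K) (φ : ResidueField A → ResidueField A)
    (hτA : ∀ c : K, τ c ∈ A ↔ c ∈ A)
    (hτφ : ∀ (c : K) (hc : c ∈ A) (hc' : τ c ∈ A),
      residue A ⟨τ c, hc'⟩ = φ (residue A ⟨c, hc⟩)) (s : Option K) :
    red A (s.map τ) = (red A s).map φ := by
  cases s with
  | none => rfl
  | some c =>
    rw [Option.map_some]
    by_cases h : c ∈ A
    · have h' : τ c ∈ A := (hτA c).mpr h
      rw [red_some_of_mem A h', red_some_of_mem A h, Option.map_some, hτφ c h h']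
    · have h' : τ c ∉ A := fun hh => h ((hτA c).mp hh)
      rw [red_some_of_notMem A h', red_some_of_notMem A h, Option.map_none]

/-- the reduced value of `t` at `P`. -/
def bar (P : Place K F) (t : F) : Option (ResidueField A) := red A (val P t)

theorem bar_eq_some_iff {P : Place K F} {t : F} {x : ResidueField A} :
    bar A P t = some x ↔
      ∃ (c : K) (h : c ∈ A), 0 < P.ord (t - algebraMap K F c) ∧ residue A ⟨c, h⟩ = x := by
  unfold bar
  rw [red_eq_some_iff]
  constructor
  · rintro ⟨c, h, hc, hx⟩
    exact ⟨c, h, val_eq_some_iff.mp hc, hx⟩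
  · rintro ⟨c, h, hc, hx⟩
    exact ⟨c, h, val_eq_some_iff.mpr hc, hx⟩

theorem bar_eq_none_of_ord_neg {P : Place K F} {t : F} (h : P.ord t < 0) : bar A P t = none := by
  unfold bar
  rw [val_eq_none_of_ord_neg h]
  rfl

theorem bar_smul (g : SemilinearAut K F) (P : Place K F) (t : F) (ht : g • t = t)
    (φ : ResidueField A → ResidueField A)
    (hτA : ∀ c : K, SemilinearAut.baseAut g c ∈ A ↔ c ∈ A)
    (hτφ : ∀ (c : K) (hc : c ∈ A) (hc' : SemilinearAut.baseAut g c ∈ A),
      residue A ⟨SemilinearAut.baseAut g c, hc'⟩ = φ (residue A ⟨c, hc⟩)) :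
    bar A (g • P) t = (bar A P t).map φ := by
  unfold bar
  rw [val_smul g P t ht, red_map A _ φ hτA hτφ]

end Generic

/-! ### the arithmetic Galois action -/

section Arithmetic

open ModularCurve

variable {L : Type*} [Field L] [Algebra ℚ L] (F₀ : IntermediateField ℚ (LaurentSeries ℚ))
variable (A : ValuationSubring L)

/-- **`jbar_I`**: inertia does not change the reduced value of a rational function. -/
theorem bar_smul_of_mem_inertia {σ : L ≃ₐ[ℚ] L} (hσ : σ ∈ A.inertiaSubgroupIn ℚ)
    (x : laurentBaseChange L F₀) (y : LaurentSeries ℚ)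
    (hxy : (x : LaurentSeries L) = coeffEmb L y) (P : Place L (laurentBaseChange L F₀)) :
    bar A (arithmeticGalois F₀ σ • P) x = bar A P x := by
  have hdec : σ ∈ A.decompositionSubgroup ℚ := by
    obtain ⟨τ, _, hτ⟩ := hσ
    rw [← hτ]
    exact τ.2
  rw [bar_smul A (arithmeticGalois F₀ σ) P x
    (Fermat.Agent.S37.Galois.arithmeticGalois_smul_of_rational F₀ σ x y hxy) id
    (fun _ => Fermat.Agent.S37.Galois.apply_mem_iff_of_mem_decompositionSubgroup A hdec)
    (fun _ hc hc' => Fermat.Agent.S37.Galois.residue_apply_of_mem_inertiaSubgroupIn A hσ hc hc')]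
  exact Option.map_id'

/-- **`jbar_Φ`**: a Frobenius lift raises the reduced value of a rational function to the
`ℓ`-th power. -/
theorem bar_smul_of_isFrobeniusAt {Φ : L ≃ₐ[ℚ] L} {ℓ : ℕ} (hΦ : A.IsFrobeniusAt Φ ℓ)
    (x : laurentBaseChange L F₀) (y : LaurentSeries ℚ)
    (hxy : (x : LaurentSeries L) = coeffEmb L y) (P : Place L (laurentBaseChange L F₀)) :
    bar A (arithmeticGalois F₀ Φ • P) x = (bar A P x).map (· ^ ℓ) :=
  bar_smul A (arithmeticGalois F₀ Φ) P x
    (Fermat.Agent.S37.Galois.arithmeticGalois_smul_of_rational F₀ Φ x y hxy) (· ^ ℓ)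
    (fun _ => Fermat.Agent.S37.Galois.apply_mem_iff_of_mem_decompositionSubgroup A
      hΦ.mem_decompositionSubgroup)
    (fun _ hc hc' => Fermat.Agent.S37.Galois.residue_apply_of_isFrobeniusAt A hΦ hc hc')

end Arithmetic

end

end Fermat.Agent.S37.Support.JVal
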