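import Mathlib
import Fermat.Agent.S37.Support.JVal
import Fermat.Agent.S24.FiniteFibres
import Fermat.Agent.S24.FFGenus
import Fermat.Agent.S24.PlaceAt

/-!
# S37 (SC2, modular instance): the `j`-value of a place of `F_M` over `ℚ̄` and its reduction

`jval M P : Option ℚ̄` is the value of `J` at the place `P` of `F_M` (`none` exactly at the cusps,
i.e. the poles of `J`), `jbar M A P : Option k_A` its reduction modulo the valuation subring `A`
(`none` at the cusps and at the places whose `j`-value is not `A`-integral).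
-/

set_option autoImplicit false

namespace Fermat.Agent.S37.Support.JModular

open AlgebraicCurve IsLocalRing ModularCurve
open Fermat.Agent.S24
open Fermat.Agent.S24.BridgeInv (Kbar FF Jd)
open Fermat.Agent.S24.PlaceAt (J)
open Fermat.Agent.S37.Support

noncomputable section

variable (M : ℕ) [NeZero M]

/-- the `j`-value of a place. -/
def jval (P : Place Kbar (FF M)) : Option Kbar := JVal.val P (J M)

/-- the reduced `j`-value of a place. -/
def jbar (A : ValuationSubring Kbar) (P : Place Kbar (FF M)) : Option (ResidueField A) :=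
  JVal.bar A P (J M)

theorem jbar_def (A : ValuationSubring Kbar) (P : Place Kbar (FF M)) :
    jbar M A P = JVal.red A (jval M P) := rfl

theorem J_ne_algebraMap (c : Kbar) : J M ≠ algebraMap Kbar (FF M) c := by
  intro h
  have htr := FiniteFibres.transcendental_J M
  rw [h] at htr
  exact htr (isAlgebraic_algebraMap c)

theorem hres (P : Place Kbar (FF M)) : FFGlue.HRes P :=
  FFGenus.hres (J M) (FiniteFibres.transcendental_J M) P

variable {M}

theorem jval_eq_some_iff {P : Place Kbar (FF M)} {c : Kbar} :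
    jval M P = some c ↔ 0 < P.ord (J M - algebraMap Kbar (FF M) c) :=
  JVal.val_eq_some_iff

theorem jval_eq_none_iff {P : Place Kbar (FF M)} : jval M P = none ↔ P.ord (J M) < 0 :=
  JVal.val_eq_none_iff_ord_neg (hres M P) (J_ne_algebraMap M)

theorem exists_jval_eq_some {P : Place Kbar (FF M)} (h : 0 ≤ P.ord (J M)) :
    ∃ c : Kbar, jval M P = some c :=
  JVal.exists_val_eq_some (hres M P) (J_ne_algebraMap M) h

theorem ord_J_nonneg_of_jval_eq_some {P : Place Kbar (FF M)} {c : Kbar}
    (h : jval M P = some c) : 0 ≤ P.ord (J M) :=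
  JVal.ord_nonneg_of_val_eq_some h

theorem jbar_eq_some_iff {A : ValuationSubring Kbar} {P : Place Kbar (FF M)}
    {x : ResidueField A} :
    jbar M A P = some x ↔
      ∃ (c : Kbar) (h : c ∈ A), 0 < P.ord (J M - algebraMap Kbar (FF M) c) ∧
        residue A ⟨c, h⟩ = x :=
  JVal.bar_eq_some_iff A

theorem jbar_eq_none_of_ord_neg {A : ValuationSubring Kbar} {P : Place Kbar (FF M)}
    (h : P.ord (J M) < 0) : jbar M A P = none :=
  JVal.bar_eq_none_of_ord_neg A h

/-- `jbar = none` iff `P` is a cusp or its `j`-value is not integral. -/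
theorem jbar_eq_none_iff {A : ValuationSubring Kbar} {P : Place Kbar (FF M)} :
    jbar M A P = none ↔
      P.ord (J M) < 0 ∨ ∃ c : Kbar, c ∉ A ∧ 0 < P.ord (J M - algebraMap Kbar (FF M) c) := by
  rw [jbar_def]
  constructor
  · intro h
    cases hv : jval M P with
    | none => exact Or.inl (jval_eq_none_iff.mp hv)
    | some c =>
      right
      refine ⟨c, fun hc => ?_, jval_eq_some_iff.mp hv⟩
      rw [hv, JVal.red_some_of_mem A hc] at h
      cases h
  · rintro (h | ⟨c, hc, hP⟩)
    · rw [jval_eq_none_iff.mpr h]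
      rfl
    · rw [jval_eq_some_iff.mpr hP, JVal.red_some_of_notMem A hc]

variable (M)

/-- **`jbar_I`**: inertia does not move the reduced `j`-value. -/
theorem jbar_smul_of_mem_inertia (A : ValuationSubring Kbar) {σ : Kbar ≃ₐ[ℚ] Kbar}
    (hσ : σ ∈ A.inertiaSubgroupIn ℚ) (P : Place Kbar (FF M)) :
    jbar M A (arithmeticGalois (modularFunctionFieldFull M) σ • P) = jbar M A P :=
  JVal.bar_smul_of_mem_inertia (modularFunctionFieldFull M) A hσ (J M) (qExpand ℚ 1 jq) rfl P

/-- **`jbar_Φ`**: a Frobenius lift raises the reduced `j`-value to the `ℓ`-th power. -/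
theorem jbar_smul_of_isFrobeniusAt (A : ValuationSubring Kbar) {Φ : Kbar ≃ₐ[ℚ] Kbar} {ℓ : ℕ}
    (hΦ : A.IsFrobeniusAt Φ ℓ) (P : Place Kbar (FF M)) :
    jbar M A (arithmeticGalois (modularFunctionFieldFull M) Φ • P)
      = (jbar M A P).map (· ^ ℓ) :=
  JVal.bar_smul_of_isFrobeniusAt (modularFunctionFieldFull M) A hΦ (J M) (qExpand ℚ 1 jq) rfl P

end

end Fermat.Agent.S37.Support.JModular
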