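import Mathlib
import Fermat.Agent.S37.Support.JModular
import Fermat.Agent.S37.Kron.ModularEq
import Fermat.Agent.S37.Kron.AtkinLehner
import Fermat.Agent.S37.HeckeInputs.Main

/-!
# S37 (SC3): support control for the Hecke correspondence `T_ℓ`

If `T_ℓ(P)` contains `P'` and the reduced `j`-value of `P` is `x`, then the reduced `j`-value of
`P'` is `x'` with `x' = x^ℓ` or `x'^ℓ = x` (Kronecker's congruence, via the modular equation
`N_α(β(J - c)) = P_c(J)`).  In particular cusps correspond to cusps.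
-/

set_option autoImplicit false

namespace Fermat.Agent.S37.Support.Control

open AlgebraicCurve IsLocalRing ModularCurve Polynomial
open Fermat.Agent.S24
open Fermat.Agent.S24.BridgeInv (Kbar FF Jd)
open Fermat.Agent.S24.PlaceAt (J)
open Fermat.Agent.S37.Support Fermat.Agent.S37.Support.JModular

noncomputable section

/-! ### generic lemmas on places -/

section Generic

variable {K F : Type*} [Field K] [Field F] [Algebra K F]

theorem aeval_mem (P : Place K F) {t : F} (ht : t ∈ P.toValuationSubring) (Q : K[X]) :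
    aeval t Q ∈ P.toValuationSubring := by
  induction Q using Polynomial.induction_on' with
  | add p q hp hq =>
    rw [map_add]
    exact add_mem hp hq
  | monomial n a =>
    rw [Polynomial.aeval_monomial]
    exact mul_mem (P.algebraMap_mem' a) (pow_mem ht n)

/-- valuation rings of places are integrally closed: an element integral over `K[t]`,
`t ∈ O_P`, lies in `O_P`. -/
theorem mem_of_isIntegral_adjoin (P : Place K F) {t x : F} (ht : t ∈ P.toValuationSubring)
    (hx : IsIntegral (Algebra.adjoin K {t}) x) : x ∈ P.toValuationSubring := by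
  have hcover : ∀ s : Algebra.adjoin K {t},
      ∃ r : P.toValuationSubring, algebraMap P.toValuationSubring F r = s := by
    rintro ⟨s, hs⟩
    rw [Algebra.adjoin_singleton_eq_range_aeval] at hs
    obtain ⟨p, rfl⟩ := hs
    exact ⟨⟨_, aeval_mem P ht p⟩, rfl⟩
  have hx' : IsIntegral P.toValuationSubring x :=
    Fermat.Agent.S37.Kron.ModularEq.isIntegral_of_subalgebra _ hcover hx
  obtain ⟨y, hy⟩ := IsIntegrallyClosed.isIntegral_iff.mp hx'
  exact hy ▸ y.2

theorem ord_nonneg_of_isIntegral_adjoin (P : Place K F) {t x : F} (ht : 0 ≤ P.ord t)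
    (hx : IsIntegral (Algebra.adjoin K {t}) x) : 0 ≤ P.ord x :=
  FFDeriv.ord_nonneg_of_mem P (mem_of_isIntegral_adjoin P (FFDeriv.mem_of_ord_nonneg P ht) hx)

/-- if `t ≡ a` at `P` and `R(t)` vanishes at `P`, then `R(a) = 0`. -/
theorem eval_eq_zero_of_ord_pos (P : Place K F) {t : F} {a : K}
    (ha : 0 < P.ord (t - algebraMap K F a)) (R : K[X]) (hR : 0 < P.ord (aeval t R)) :
    R.eval a = 0 := by
  by_contra hne
  obtain ⟨Q, hQ⟩ := Polynomial.X_sub_C_dvd_sub_C_eval (a := a) (p := R)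
  have ht : t ∈ P.toValuationSubring :=
    FFDeriv.mem_of_ord_nonneg P (FFApprox.ord_nonneg_of_ord_sub_pos P t a ha)
  have e : aeval t R = (t - algebraMap K F a) * aeval t Q + algebraMap K F (R.eval a) := by
    have h := congrArg (aeval t) hQ
    simp only [map_sub, map_mul, aeval_X, aeval_C] at h
    linear_combination h
  set z := (t - algebraMap K F a) * aeval t Q with hz
  have hc0 : P.ord (algebraMap K F (R.eval a)) = 0 := FFDeriv.ord_algebraMap P _
  have hcne : algebraMap K F (R.eval a) ≠ 0 := by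
    rw [Ne, map_eq_zero]
    exact hne
  by_cases hz0 : z = 0
  · rw [e, hz0, zero_add, hc0] at hR
    omega
  · have h1 : t - algebraMap K F a ≠ 0 := left_ne_zero_of_mul hz0
    have h2 : aeval t Q ≠ 0 := right_ne_zero_of_mul hz0
    have hzpos : 0 < P.ord z := by
      rw [hz, P.ord_mul h1 h2]
      have := FFDeriv.ord_nonneg_of_mem P (aeval_mem P ht Q)
      omega
    have hsum : aeval t R + -z = algebraMap K F (R.eval a) := by
      rw [e]
      ring
    have h3 := FFDeriv.min_le_ord_add P (x := aeval t R) (y := -z) (by rw [hsum]; exact hcne)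
    rw [hsum, hc0, FFDeriv.ord_neg] at h3
    have := lt_min hR hzpos
    omega

variable {F' : Type*} [Field F'] [Algebra K F']

/-- a place in the image of a point under a correspondence comes from a place upstairs. -/
theorem exists_place_of_correspondence_ne_zero [HasPrincipalDivisors K F'] (φ ψ : F →ₐ[K] F')
    (hφ : φ.toRingHom.IsIntegral) (hψ : ψ.toRingHom.IsIntegral) (P P' : Place K F)
    (h : Divisor.correspondence φ ψ hφ hψ (Finsupp.single P 1) P' ≠ 0) :
    ∃ W : Place K F', W.restrictAlong φ hφ = P ∧ W.restrictAlong ψ hψ = P' := by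
  classical
  by_contra hno
  simp only [not_exists, not_and] at hno
  apply h
  rw [Divisor.correspondence_apply]
  obtain ⟨D', hD'⟩ : ∃ D', D' = Divisor.pullbackAlong φ hφ (Finsupp.single P 1) := ⟨_, rfl⟩
  rw [← hD', ← Finsupp.sum_single D', Finsupp.sum, map_sum, Finsupp.finsetSum_apply]
  refine Finset.sum_eq_zero fun W hW => ?_
  rw [Divisor.pushforwardAlong_single, Finsupp.single_apply, if_neg]
  intro hWα
  have hWne : D' W ≠ 0 := Finsupp.mem_support_iff.mp hW
  rw [hD', Divisor.pullbackAlong_apply, Finsupp.single_apply] at hWne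
  have hWβ : W.restrictAlong φ hφ = P := by
    by_contra hne
    rw [if_neg (Ne.symm hne), mul_zero] at hWne
    exact hWne rfl
  exact hno W hWβ hWα

/-- positivity of the order of a norm from the norm formula. -/
theorem ord_norm_pos [HasPrincipalDivisors K F'] (φ : F →ₐ[K] F')
    (hφ : φ.toRingHom.IsIntegral) (hfin : FiniteAlong K φ) (hN : NormFormulaAlong K φ hfin)
    (hdeg : ∀ W : Place K F', W.deg = 1) (f : F') (hf : f ≠ 0) (P' : Place K F)
    (W : Place K F') (hW : W.restrictAlong φ hφ = P') (hWf : 0 < W.ord f)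
    (hall : ∀ W' : Place K F', W'.restrictAlong φ hφ = P' → 0 ≤ W'.ord f) :
    0 < P'.ord (letI := algebraAlong φ; Algebra.norm F f) := by
  classical
  letI := algebraAlong φ
  haveI := isScalarTower_along φ
  haveI := isIntegral_along φ hφ
  haveI : Module.Finite F F' := hfin
  obtain ⟨D, hD, -⟩ := HasPrincipalDivisors.exists_divisor (K := K) f hf
  have key : Divisor.pushforward F D P' = P'.ord (Algebra.norm F f) := hN f hf D hD P'
  rw [← key, Divisor.pushforward_apply]
  have hWsupp : W ∈ D.support := by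
    rw [Finsupp.mem_support_iff, hD W]
    omega
  refine Finset.sum_pos' (fun w _ => ?_) ⟨W, hWsupp, ?_⟩
  · split_ifs with hw
    · have h1 : 0 ≤ D w := by
        rw [hD w]
        exact hall w hw
      positivity
    · exact le_rfl
  · have hW' : W.restrict F = P' := hW
    rw [if_pos hW', hD W]
    have hid : W.inertiaDeg F ≠ 0 := by
      intro h0
      have := W.deg_restrict_mul_inertiaDeg (F := F)
      rw [h0, mul_zero, hdeg W] at this
      exact zero_ne_one this
    have : 0 < (W.inertiaDeg F : ℤ) := by exact_mod_cast Nat.pos_of_ne_zero hid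
    positivity

omit [Algebra K F] in
theorem ramificationIndexAlong_pos (φ : F →+* F') (hφ : φ.IsIntegral) (W : Place K F') :
    0 < (letI := φ.toAlgebra; W.ramificationIndex F) := by
  letI := φ.toAlgebra
  haveI : Algebra.IsIntegral F F' := ⟨hφ⟩
  exact W.ramificationIndex_pos (F := F)

theorem ord_along_nonneg_iff (φ : F →ₐ[K] F') (hφ : φ.toRingHom.IsIntegral) (W : Place K F')
    (f : F) : 0 ≤ W.ord (φ f) ↔ 0 ≤ (W.restrictAlong φ hφ).ord f := by
  rw [Place.ord_restrictAlong φ hφ W f]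
  have he : 0 < Place.ramificationIndexAlong φ W := ramificationIndexAlong_pos φ.toRingHom hφ W
  have he' : (0 : ℤ) < Place.ramificationIndexAlong φ W := by exact_mod_cast he
  constructor
  · intro h
    by_contra hneg
    rw [not_le] at hneg
    have := mul_neg_of_pos_of_neg he' hneg
    omega
  · intro h
    positivity

theorem ord_along_pos_iff (φ : F →ₐ[K] F') (hφ : φ.toRingHom.IsIntegral) (W : Place K F')
    (f : F) : 0 < W.ord (φ f) ↔ 0 < (W.restrictAlong φ hφ).ord f := by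
  rw [Place.ord_restrictAlong φ hφ W f]
  have he : 0 < Place.ramificationIndexAlong φ W := ramificationIndexAlong_pos φ.toRingHom hφ W
  have he' : (0 : ℤ) < Place.ramificationIndexAlong φ W := by exact_mod_cast he
  constructor
  · intro h
    by_contra hneg
    rw [not_lt] at hneg
    have := mul_nonpos_of_nonneg_of_nonpos he'.le hneg
    omega
  · intro h
    positivity

end Generic

/-! ### cusps correspond to cusps on `F_{Mℓ}` -/

section Modular

variable (M ℓ : ℕ) [NeZero M] [NeZero ℓ]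

/-- `J_ℓ = β J` is integral at every place where `J = α J` is. -/
theorem ord_Jℓ_nonneg_of_ord_J_nonneg (W : Place Kbar (FF (M * ℓ)))
    (h : 0 ≤ W.ord (J (M * ℓ))) : 0 ≤ W.ord (Jd (M * ℓ) ℓ (dvd_mul_left ℓ M)) :=
  ord_nonneg_of_isIntegral_adjoin W h
    (InvRat.isIntegral_Jd (BridgePhi.isBridge_PhiBar (M * ℓ)) ℓ (dvd_mul_left ℓ M))

/-- **Cusps of `F_{Mℓ}`**: `J` and `J_ℓ` have the same poles. -/
theorem ord_J_nonneg_iff (hℓ : ℓ.Prime) (hℓM : ¬ ℓ ∣ M) (W : Place Kbar (FF (M * ℓ))) :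
    0 ≤ W.ord (J (M * ℓ)) ↔ 0 ≤ W.ord (Jd (M * ℓ) ℓ (dvd_mul_left ℓ M)) := by
  refine ⟨ord_Jℓ_nonneg_of_ord_J_nonneg M ℓ W, fun h => ?_⟩
  obtain ⟨w, hwK, hwα, hwβ, -⟩ := Fermat.Agent.S37.Kron.AtkinLehner.exists_atkinLehner M ℓ hℓ hℓM
  let g : SemilinearAut Kbar (FF (M * ℓ)) := ⟨(w, 1), fun a => hwK a⟩
  have hg : ∀ x : FF (M * ℓ), g • x = w x := fun _ => rfl
  have hwJ : w (J (M * ℓ)) = Jd (M * ℓ) ℓ (dvd_mul_left ℓ M) := by
    rw [← Fermat.Agent.S37.HeckeInputs.heckeAlphaBar_J M ℓ, hwα,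
      Fermat.Agent.S37.HeckeInputs.heckeBetaBar_J]
  have hwJℓ : w (Jd (M * ℓ) ℓ (dvd_mul_left ℓ M)) = J (M * ℓ) := by
    rw [← Fermat.Agent.S37.HeckeInputs.heckeBetaBar_J M ℓ, hwβ,
      Fermat.Agent.S37.HeckeInputs.heckeAlphaBar_J]
  have h1 : (g • W).ord (J (M * ℓ)) = W.ord (Jd (M * ℓ) ℓ (dvd_mul_left ℓ M)) := by
    rw [← hwJℓ, ← hg, SemilinearAut.ord_smul]
  have h2 : (g • W).ord (Jd (M * ℓ) ℓ (dvd_mul_left ℓ M)) = W.ord (J (M * ℓ)) := by
    rw [← hwJ, ← hg, SemilinearAut.ord_smul]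
  rw [← h2]
  apply ord_Jℓ_nonneg_of_ord_J_nonneg
  rw [h1]
  exact h

/-! ### neighbours under `T_ℓ` -/

/-- **The `j`-value of a `T_ℓ`-neighbour is a root of the modular polynomial.** -/
theorem exists_root_of_neighbour (hℓ : ℓ.Prime) (hℓM : ¬ ℓ ∣ M)
    (hα : HeckeAlphaBarIntegral Kbar M ℓ) (hβ : HeckeBetaBarIntegral Kbar M ℓ)
    (W : Place Kbar (FF (M * ℓ))) (c : Kbar)
    (hc : 0 < (W.restrictAlong (heckeBetaBar Kbar M ℓ) hβ).ord
      (J M - algebraMap Kbar (FF M) c))
    (R : Kbar[X])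
    (hR : (letI := algebraAlong (heckeAlphaBar Kbar M ℓ);
      Algebra.norm (FF M) (heckeBetaBar Kbar M ℓ (J M - algebraMap Kbar (FF M) c)))
        = aeval (J M) R) :
    ∃ a' : Kbar, 0 < (W.restrictAlong (heckeAlphaBar Kbar M ℓ) hα).ord
        (J M - algebraMap Kbar (FF M) a') ∧ R.eval a' = 0 := by
  haveI := Fermat.Agent.S37.HeckeInputs.hasPrincipalDivisors_bar (M * ℓ)
  set α := heckeAlphaBar Kbar M ℓ with hαdef
  set β := heckeBetaBar Kbar M ℓ with hβdef
  set P' := W.restrictAlong α hα with hP'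
  set f : FF (M * ℓ) := β (J M - algebraMap Kbar (FF M) c) with hf
  have hJc : J M - algebraMap Kbar (FF M) c ≠ 0 := sub_ne_zero.mpr (J_ne_algebraMap M c)
  have hf0 : f ≠ 0 := (map_ne_zero_iff _ β.toRingHom.injective).mpr hJc
  have hfeq : f = Jd (M * ℓ) ℓ (dvd_mul_left ℓ M) - algebraMap Kbar (FF (M * ℓ)) c := by
    rw [hf, map_sub, hβdef, Fermat.Agent.S37.HeckeInputs.heckeBetaBar_J, AlgHom.commutes]
  have hαJ : α (J M) = J (M * ℓ) := Fermat.Agent.S37.HeckeInputs.heckeAlphaBar_J M ℓ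
  -- `f` vanishes at `W`
  have hWf : 0 < W.ord f := (ord_along_pos_iff β hβ W _).mpr hc
  -- `W` is not a cusp, hence `P'` is not a cusp
  have hWJℓ : 0 ≤ W.ord (Jd (M * ℓ) ℓ (dvd_mul_left ℓ M)) :=
    FFApprox.ord_nonneg_of_ord_sub_pos W _ c (hfeq ▸ hWf)
  have hWJ : 0 ≤ W.ord (J (M * ℓ)) := (ord_J_nonneg_iff M ℓ hℓ hℓM W).mpr hWJℓ
  have hP'J : 0 ≤ P'.ord (J M) := (ord_along_nonneg_iff α hα W (J M)).mp (hαJ ▸ hWJ)
  obtain ⟨a', ha'⟩ := exists_jval_eq_some hP'J
  rw [jval_eq_some_iff] at ha'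
  refine ⟨a', ha', ?_⟩
  -- all places above `P'` are non-cuspidal, so `f` is integral there
  have hall : ∀ W' : Place Kbar (FF (M * ℓ)), W'.restrictAlong α hα = P' → 0 ≤ W'.ord f := by
    intro W' hW'
    have h1 : 0 ≤ W'.ord (J (M * ℓ)) := by
      rw [← hαJ, ord_along_nonneg_iff α hα W' (J M), hW']
      exact hP'J
    have h2 := ord_Jℓ_nonneg_of_ord_J_nonneg M ℓ W' h1
    rw [hfeq]
    apply FFDeriv.ord_nonneg_of_mem
    exact sub_mem (FFDeriv.mem_of_ord_nonneg W' h2) (W'.algebraMap_mem' c)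
  have hpos := ord_norm_pos α hα (Fermat.Agent.S37.HeckeInputs.finiteAlong_alpha M ℓ)
    (Fermat.Agent.S37.HeckeInputs.normFormulaAlong_alpha M ℓ)
    (Fermat.Agent.S37.HeckeInputs.deg_eq_one_bar (M * ℓ)) f hf0 P' W rfl hWf hall
  rw [hR] at hpos
  exact eval_eq_zero_of_ord_pos P' ha' R hpos

/-- **`jbar_T`** (Kronecker's congruence on points): if `P'` occurs in `T_ℓ(P)` and the reduced
`j`-value of `P` is `x`, then the reduced `j`-value of `P'` is some `x'` with `x' = x^ℓ` or
`x'^ℓ = x`. -/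
theorem jbar_neighbour (hℓ : ℓ.Prime) (hℓM : ¬ ℓ ∣ M) (A : ValuationSubring Kbar)
    (hA : A.LiesOverPrime ℓ)
    (hα : HeckeAlphaBarIntegral Kbar M ℓ) (hβ : HeckeBetaBarIntegral Kbar M ℓ)
    [HasPrincipalDivisors Kbar (FF (M * ℓ))]
    (P P' : Place Kbar (FF M))
    (h : heckeDivBar hα hβ (Finsupp.single P 1) P' ≠ 0) (x : ResidueField A)
    (hx : jbar M A P = some x) :
    ∃ x' : ResidueField A, jbar M A P' = some x' ∧ (x' = x ^ ℓ ∨ x' ^ ℓ = x) := by
  obtain ⟨W, hWβ, hWα⟩ := exists_place_of_correspondence_ne_zero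
    (heckeBetaBar Kbar M ℓ) (heckeAlphaBar Kbar M ℓ) hβ hα P P' h
  obtain ⟨c, hcA, hPc, hcx⟩ := jbar_eq_some_iff.mp hx
  obtain ⟨Pc, hdeg, hlead, hnorm, hred⟩ :=
    Fermat.Agent.S37.Kron.ModularEq.exists_modularPoly M ℓ hℓ hℓM A hA ⟨c, hcA⟩
  obtain ⟨a', ha', hroot⟩ := exists_root_of_neighbour M ℓ hℓ hℓM hα hβ W c (hWβ ▸ hPc)
    (Pc.map A.subtype) hnorm
  rw [hWα] at ha'
  -- `a'` is integral over `A`
  have hint : IsIntegral A a' := by
    refine ⟨C (hlead.unit⁻¹ : Aˣ).val * Pc, ?_, ?_⟩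
    · rw [Polynomial.Monic, Polynomial.leadingCoeff_mul', Polynomial.leadingCoeff_C]
      · exact hlead.val_inv_mul
      · rw [Polynomial.leadingCoeff_C, hlead.val_inv_mul]
        exact one_ne_zero
    · rw [Polynomial.eval₂_mul, ← Polynomial.eval_map (algebraMap A Kbar) a' (p := Pc)]
      have : Pc.map (algebraMap A Kbar) = Pc.map A.subtype := rfl
      rw [this, hroot, mul_zero]
  obtain ⟨a'A, ha'A⟩ := IsIntegrallyClosed.isIntegral_iff.mp hint
  have ha'mem : a' ∈ A := ha'A ▸ a'A.2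
  refine ⟨residue A ⟨a', ha'mem⟩, jbar_eq_some_iff.mpr ⟨a', ha'mem, ha', rfl⟩, ?_⟩
  -- the reduction of the root
  have hrootA : Pc.eval (⟨a', ha'mem⟩ : A) = 0 := by
    apply Subtype.val_injective
    have h1 : A.subtype (Pc.eval (⟨a', ha'mem⟩ : A)) = (Pc.map A.subtype).eval a' := by
      rw [Polynomial.eval_map, ← Polynomial.eval₂_at_apply]
      rfl
    exact h1.trans hroot
  have hbar : (Pc.map (residue A)).eval (residue A ⟨a', ha'mem⟩) = 0 := by
    rw [Polynomial.eval_map, Polynomial.eval₂_at_apply, hrootA, map_zero]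
  rw [hred] at hbar
  simp only [Polynomial.eval_mul, Polynomial.eval_sub, Polynomial.eval_pow, Polynomial.eval_X,
    Polynomial.eval_C] at hbar
  have hcx' : residue A ⟨c, hcA⟩ = x := hcx
  rw [hcx'] at hbar
  rcases mul_eq_zero.mp hbar with h1 | h1
  · exact Or.inr (sub_eq_zero.mp h1)
  · exact Or.inl (sub_eq_zero.mp h1)

end Modular

end

end Fermat.Agent.S37.Support.Control
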