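import Mathlib
import Fermat.Agent.S37.Support.Control

/-!
# S37 (SC4): support control at the level of sets of reduced `j`-values

`ThrS S P` says that the reduced `j`-value of the place `P` of `F_M` lies in the set
`S ⊆ Option k` (`none` = cusps and non-integral `j`-values).  For Frobenius-stable `S` containing
`none` this is stable under inertia, a Frobenius lift, and `T_ℓ`-neighbours (finite
Frobenius-stable hulls: `Support/GoodSetK.exists_frobStable_residue`).
-/

set_option autoImplicit false

namespace Fermat.Agent.S37.Support.ThrS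

open AlgebraicCurve IsLocalRing ModularCurve Polynomial
open Fermat.Agent.S24
open Fermat.Agent.S24.BridgeInv (Kbar FF Jd)
open Fermat.Agent.S24.PlaceAt (J)
open Fermat.Agent.S37.Support Fermat.Agent.S37.Support.JModular

noncomputable section

/-! ### Frobenius-stable sets of values -/

section ResidueField

variable {L : Type*} [Field L] (A : ValuationSubring L)

/-- `S` contains `none` and is stable under Frobenius and its inverse. -/
def FrobStable (ℓ : ℕ) (S : Set (Option (ResidueField A))) : Prop :=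
  none ∈ S ∧ ∀ x : ResidueField A, some x ∈ S ↔ some (x ^ ℓ) ∈ S

end ResidueField

/-! ### `ThrS` -/

section ThrS

variable (M : ℕ) [NeZero M] (A : ValuationSubring Kbar)

/-- the reduced `j`-value of `P` lies in `S`. -/
def ThrS (S : Set (Option (ResidueField A))) (P : Place Kbar (FF M)) : Prop :=
  jbar M A P ∈ S

/-- **`thr_I`** -/
theorem thrS_I (S : Set (Option (ResidueField A))) {σ : Kbar ≃ₐ[ℚ] Kbar}
    (hσ : σ ∈ A.inertiaSubgroupIn ℚ) (P : Place Kbar (FF M)) :
    ThrS M A S (arithmeticGalois (modularFunctionFieldFull M) σ • P) ↔ ThrS M A S P := by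
  unfold ThrS
  rw [jbar_smul_of_mem_inertia M A hσ P]

/-- **`thr_Φ`** -/
theorem thrS_Φ {ℓ : ℕ} {S : Set (Option (ResidueField A))} (hS : FrobStable A ℓ S)
    {Φ : Kbar ≃ₐ[ℚ] Kbar} (hΦ : A.IsFrobeniusAt Φ ℓ) (P : Place Kbar (FF M)) :
    ThrS M A S (arithmeticGalois (modularFunctionFieldFull M) Φ • P) ↔ ThrS M A S P := by
  unfold ThrS
  rw [jbar_smul_of_isFrobeniusAt M A hΦ P]
  cases jbar M A P with
  | none => rfl
  | some x => exact (hS.2 x).symm

/-- **`thr_T`** -/
theorem thrS_T (ℓ : ℕ) [NeZero ℓ] {S : Set (Option (ResidueField A))} (hS : FrobStable A ℓ S)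
    (hℓ : ℓ.Prime) (hℓM : ¬ ℓ ∣ M) (hA : A.LiesOverPrime ℓ)
    (hα : HeckeAlphaBarIntegral Kbar M ℓ) (hβ : HeckeBetaBarIntegral Kbar M ℓ)
    [HasPrincipalDivisors Kbar (FF (M * ℓ))] (P P' : Place Kbar (FF M))
    (h : heckeDivBar hα hβ (Finsupp.single P 1) P' ≠ 0) (hP' : ThrS M A S P') :
    ThrS M A S P := by
  unfold ThrS at hP' ⊢
  cases hx : jbar M A P with
  | none => exact hS.1
  | some x =>
    obtain ⟨x', hx', hrel⟩ := Control.jbar_neighbour M ℓ hℓ hℓM A hA hα hβ P P' h x hx
    rw [hx'] at hP'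
    rcases hrel with rfl | rfl
    · exact (hS.2 x).mpr hP'
    · exact (hS.2 x').mp hP'

end ThrS

end

end Fermat.Agent.S37.Support.ThrS
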