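import Mathlib
import Fermat.Agent.S37.Support.ThrS

/-!
# S37 (SC5): support control for finite sets of closed points of the special fibre

`Q` is the set of closed points of the special fibre, `v : Q → Option k` their `j̄`-value
(`none` = cusps).  `GoodT T` says that `T` is the full preimage of a finite Frobenius-stable set of
values containing `none`; `ThrT T P` that the place `P` of the generic fibre has the reduced
`j`-value of some point of `T`.  The fields `thr_I`, `thr_Φ`, `thr_T`, `exists_good` of the KEY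
interface follow, and `localEq`/`unit` reduce to their `ThrS`-forms.
-/

set_option autoImplicit false

namespace Fermat.Agent.S37.Support.ThrT

open AlgebraicCurve IsLocalRing ModularCurve
open Fermat.Agent.S24
open Fermat.Agent.S24.BridgeInv (Kbar FF Jd)
open Fermat.Agent.S37.Support Fermat.Agent.S37.Support.JModular Fermat.Agent.S37.Support.ThrS

noncomputable section

variable (M : ℕ) [NeZero M] (A : ValuationSubring Kbar) {Q : Type*}
  (v : Q → Option (ResidueField A))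

/-- `P` has the reduced `j`-value of some point of `T`. -/
def ThrT (T : Finset Q) (P : Place Kbar (FF M)) : Prop := ∃ Q₀ ∈ T, v Q₀ = jbar M A P

/-- `T` is the preimage of a finite Frobenius-stable set of values containing `none`. -/
def GoodT (ℓ : ℕ) (T : Finset Q) : Prop :=
  ∃ S : Finset (Option (ResidueField A)), FrobStable A ℓ (↑S) ∧ ∀ Q₀, Q₀ ∈ T ↔ v Q₀ ∈ S

variable {M A v}

omit [NeZero M] in
theorem thrT_iff_thrS (hsurj : Function.Surjective v) {T : Finset Q}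
    {S : Finset (Option (ResidueField A))} (hTS : ∀ Q₀, Q₀ ∈ T ↔ v Q₀ ∈ S)
    (P : Place Kbar (FF M)) : ThrT M A v T P ↔ ThrS M A (↑S) P := by
  unfold ThrT ThrS
  constructor
  · rintro ⟨Q₀, hQ₀, hv⟩
    rw [← hv]
    exact Finset.mem_coe.mpr ((hTS Q₀).mp hQ₀)
  · intro h
    obtain ⟨Q₀, hQ₀⟩ := hsurj (jbar M A P)
    exact ⟨Q₀, (hTS Q₀).mpr (hQ₀ ▸ Finset.mem_coe.mp h), hQ₀⟩

/-- **`thr_I`** -/
theorem thrT_I (hsurj : Function.Surjective v) {ℓ : ℕ} {T : Finset Q} (hT : GoodT A v ℓ T)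
    {σ : Kbar ≃ₐ[ℚ] Kbar} (hσ : σ ∈ A.inertiaSubgroupIn ℚ) (P : Place Kbar (FF M)) :
    ThrT M A v T (arithmeticGalois (modularFunctionFieldFull M) σ • P) ↔ ThrT M A v T P := by
  obtain ⟨S, -, hTS⟩ := hT
  rw [thrT_iff_thrS hsurj hTS, thrT_iff_thrS hsurj hTS]
  exact thrS_I M A _ hσ P

/-- **`thr_Φ`** -/
theorem thrT_Φ (hsurj : Function.Surjective v) {ℓ : ℕ} {T : Finset Q} (hT : GoodT A v ℓ T)
    {Φ : Kbar ≃ₐ[ℚ] Kbar} (hΦ : A.IsFrobeniusAt Φ ℓ) (P : Place Kbar (FF M)) :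
    ThrT M A v T (arithmeticGalois (modularFunctionFieldFull M) Φ • P) ↔ ThrT M A v T P := by
  obtain ⟨S, hS, hTS⟩ := hT
  rw [thrT_iff_thrS hsurj hTS, thrT_iff_thrS hsurj hTS]
  exact thrS_Φ M A hS hΦ P

/-- **`thr_T`** -/
theorem thrT_T (hsurj : Function.Surjective v) {ℓ : ℕ} [NeZero ℓ] {T : Finset Q}
    (hT : GoodT A v ℓ T) (hℓ : ℓ.Prime) (hℓM : ¬ ℓ ∣ M) (hA : A.LiesOverPrime ℓ)
    (hα : HeckeAlphaBarIntegral Kbar M ℓ) (hβ : HeckeBetaBarIntegral Kbar M ℓ)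
    [HasPrincipalDivisors Kbar (FF (M * ℓ))] (P P' : Place Kbar (FF M))
    (h : heckeDivBar hα hβ (Finsupp.single P 1) P' ≠ 0) (hP' : ThrT M A v T P') :
    ThrT M A v T P := by
  obtain ⟨S, hS, hTS⟩ := hT
  rw [thrT_iff_thrS hsurj hTS] at hP' ⊢
  exact thrS_T M A ℓ hS hℓ hℓM hA hα hβ P P' h hP'

/-- **`exists_good`** -/
theorem exists_goodT {ℓ : ℕ} (hfin : ∀ s : Option (ResidueField A), {Q₀ : Q | v Q₀ = s}.Finite)
    (hstab : ∀ S₀ : Finset (Option (ResidueField A)),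
      ∃ S : Finset (Option (ResidueField A)), S₀ ⊆ S ∧ none ∈ S ∧
        ∀ x : ResidueField A, some x ∈ S ↔ some (x ^ ℓ) ∈ S) (Q₀ : Q) :
    ∃ T : Finset Q, Q₀ ∈ T ∧ GoodT A v ℓ T := by
  classical
  obtain ⟨S, hS₀, hnone, hfrob⟩ := hstab {v Q₀}
  have hfinT : {Q₁ : Q | v Q₁ ∈ S}.Finite := by
    have : {Q₁ : Q | v Q₁ ∈ S} = ⋃ s ∈ (S : Set (Option (ResidueField A))), {Q₁ : Q | v Q₁ = s} := by
      ext Q₁
      simp
    rw [this]
    exact Set.Finite.biUnion (Finset.finite_toSet S) fun s _ => hfin s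
  refine ⟨hfinT.toFinset, ?_, S, ⟨Finset.mem_coe.mpr hnone, fun x => ?_⟩, fun Q₁ => ?_⟩
  · rw [Set.Finite.mem_toFinset]
    exact hS₀ (Finset.mem_singleton_self _)
  · simp only [Finset.mem_coe]
    exact hfrob x
  · rw [Set.Finite.mem_toFinset]
    rfl

/-- **`localEq`** from its `ThrS`-form. -/
theorem localEq_of (hsurj : Function.Surjective v) {ℓ : ℕ} (IsU : FF M → Prop)
    (hLE : ∀ S : Finset (Option (ResidueField A)), FrobStable A ℓ (↑S) →
      ∀ P : Place Kbar (FF M), ThrS M A (↑S) P →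
        ∃ g : FF M, IsU g ∧ P.ord g = 1 ∧
          ∀ P' : Place Kbar (FF M), P' ≠ P → ThrS M A (↑S) P' → P'.ord g = 0)
    {T : Finset Q} (hT : GoodT A v ℓ T) (P : Place Kbar (FF M)) (hP : ThrT M A v T P) :
    ∃ g : FF M, IsU g ∧ P.ord g = 1 ∧
      ∀ P' : Place Kbar (FF M), P' ≠ P → ThrT M A v T P' → P'.ord g = 0 := by
  obtain ⟨S, hS, hTS⟩ := hT
  obtain ⟨g, hg, hgP, hg0⟩ := hLE S hS P ((thrT_iff_thrS hsurj hTS P).mp hP)
  exact ⟨g, hg, hgP, fun P' hne hP' => hg0 P' hne ((thrT_iff_thrS hsurj hTS P').mp hP')⟩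

/-- **`unit`** from its `ThrS`-form. -/
theorem unit_of (hsurj : Function.Surjective v) {ℓ : ℕ} {Fk : Type*} (IsU : FF M → Prop)
    (res : FF M → Fk) (ordQ : Q → Fk → ℤ)
    (hUN : ∀ S : Finset (Option (ResidueField A)), FrobStable A ℓ (↑S) →
      ∀ z : FF M, IsU z → (∀ P : Place Kbar (FF M), ThrS M A (↑S) P → P.ord z = 0) →
        ∀ Q₀ : Q, v Q₀ ∈ S → ordQ Q₀ (res z) = 0)
    {T : Finset Q} (hT : GoodT A v ℓ T) (z : FF M) (hz : IsU z)
    (h0 : ∀ P : Place Kbar (FF M), ThrT M A v T P → P.ord z = 0) :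
    ∀ Q₀ ∈ T, ordQ Q₀ (res z) = 0 := by
  obtain ⟨S, hS, hTS⟩ := hT
  intro Q₀ hQ₀
  exact hUN S hS z hz (fun P hP => h0 P ((thrT_iff_thrS hsurj hTS P).mpr hP)) Q₀
    ((hTS Q₀).mp hQ₀)

end

end Fermat.Agent.S37.Support.ThrT
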