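import Mathlib
import Fermat.Agent.S37.Support.ThrT
import Fermat.Agent.S37.Support.GoodSetK
import Fermat.Agent.S37.Kron.GaussNorm

/-!
# S37 (SC6): support control on the places of the special fibre `F_{M,k}`

`Q := Place k F_{M,k}`, `vK Q₀ : Option k` the `j̄`-value of `Q₀` (`none` exactly at the cusps).
It is surjective with finite fibres; hence the four support-control fields of the KEY interface
for `Thr := ThrT … vK`, `Good := GoodT … vK`.
-/

set_option autoImplicit false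

namespace Fermat.Agent.S37.Support.ThrTK

open AlgebraicCurve IsLocalRing ModularCurve
open Fermat.Agent.S24
open Fermat.Agent.S24.BridgeInv (Kbar FF Jd)
open Fermat.Agent.S18.Trans
open Fermat.Agent.S37.Support Fermat.Agent.S37.Support.JModular Fermat.Agent.S37.Support.ThrS
  Fermat.Agent.S37.Support.ThrT

noncomputable section

section Generic

variable {ℓ : ℕ} [Fact ℓ.Prime] (k : Type*) [Field k] [CharP k ℓ] (M : ℕ) [NeZero M]

/-- the `j̄`-value of a place of the special fibre. -/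
def vK (Q₀ : Place k (modularFunctionFieldFullC k M)) : Option k := JVal.val Q₀ (jBar k M)

variable {k M}

omit [Fact ℓ.Prime] [CharP k ℓ] [NeZero M] in
theorem vK_eq_some_iff {Q₀ : Place k (modularFunctionFieldFullC k M)} {c : k} :
    vK k M Q₀ = some c ↔
      0 < Q₀.ord (jBar k M - algebraMap k (modularFunctionFieldFullC k M) c) :=
  JVal.val_eq_some_iff

theorem vK_eq_none_iff [IsAlgClosed k] (hℓM : ¬ ℓ ∣ M)
    {Q₀ : Place k (modularFunctionFieldFullC k M)} :
    vK k M Q₀ = none ↔ Q₀.ord (jBar k M) < 0 := by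
  refine ⟨fun h => ?_, JVal.val_eq_none_of_ord_neg⟩
  rcases FibreFiniteK.exists_jval k M hℓM Q₀ with hneg | ⟨c, hc⟩
  · exact hneg
  · exact absurd hc (JVal.val_eq_none_iff.mp h c)

theorem vK_surjective (hℓM : ¬ ℓ ∣ M) : Function.Surjective (vK k M) := by
  intro s
  cases s with
  | none =>
    obtain ⟨Q₀, hQ₀⟩ := GoodSetK.exists_pole_jBar k M hℓM
    exact ⟨Q₀, JVal.val_eq_none_of_ord_neg hQ₀⟩
  | some c =>
    obtain ⟨Q₀, hQ₀⟩ := GoodSetK.exists_place_jBar_eq k M hℓM c
    exact ⟨Q₀, vK_eq_some_iff.mpr hQ₀⟩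

theorem vK_fibre_finite [IsAlgClosed k] (hℓM : ¬ ℓ ∣ M) (s : Option k) :
    {Q₀ : Place k (modularFunctionFieldFullC k M) | vK k M Q₀ = s}.Finite := by
  cases s with
  | none =>
    refine (FibreFiniteK.finite_poles_jBar k M hℓM).subset fun Q₀ hQ₀ => ?_
    exact (vK_eq_none_iff hℓM).mp hQ₀
  | some c =>
    refine (FibreFiniteK.finite_fibre_jBar k M hℓM c).subset fun Q₀ hQ₀ => ?_
    exact vK_eq_some_iff.mp hQ₀

end Generic

/-! ### the four support-control fields -/

section Fields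

variable (M : ℕ) [NeZero M] (A : ValuationSubring Kbar) {ℓ : ℕ}

/-- `Thr` for the KEY interface. -/
abbrev Thr (T : Finset (Place (ResidueField A) (modularFunctionFieldFullC (ResidueField A) M)))
    (P : Place Kbar (FF M)) : Prop :=
  ThrT M A (vK (ResidueField A) M) T P

/-- `Good` for the KEY interface. -/
abbrev Good (ℓ : ℕ)
    (T : Finset (Place (ResidueField A) (modularFunctionFieldFullC (ResidueField A) M))) : Prop :=
  GoodT A (vK (ResidueField A) M) ℓ T

variable {M A}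

theorem thr_I (hℓ : ℓ.Prime) (hℓM : ¬ ℓ ∣ M) (hA : A.LiesOverPrime ℓ)
    {T : Finset (Place (ResidueField A) (modularFunctionFieldFullC (ResidueField A) M))}
    (hT : Good M A ℓ T) {σ : Kbar ≃ₐ[ℚ] Kbar} (hσ : σ ∈ A.inertiaSubgroupIn ℚ)
    (P : Place Kbar (FF M)) :
    Thr M A T (arithmeticGalois (modularFunctionFieldFull M) σ • P) ↔ Thr M A T P := by
  haveI : Fact ℓ.Prime := ⟨hℓ⟩
  haveI := Fermat.Agent.S37.Kron.Reduce.charP_residueField A hℓ hA
  exact thrT_I (vK_surjective hℓM) hT hσ P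

theorem thr_Φ (hℓ : ℓ.Prime) (hℓM : ¬ ℓ ∣ M) (hA : A.LiesOverPrime ℓ)
    {T : Finset (Place (ResidueField A) (modularFunctionFieldFullC (ResidueField A) M))}
    (hT : Good M A ℓ T) {Φ : Kbar ≃ₐ[ℚ] Kbar} (hΦ : A.IsFrobeniusAt Φ ℓ)
    (P : Place Kbar (FF M)) :
    Thr M A T (arithmeticGalois (modularFunctionFieldFull M) Φ • P) ↔ Thr M A T P := by
  haveI : Fact ℓ.Prime := ⟨hℓ⟩
  haveI := Fermat.Agent.S37.Kron.Reduce.charP_residueField A hℓ hA
  exact thrT_Φ (vK_surjective hℓM) hT hΦ P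

theorem thr_T [NeZero ℓ] (hℓ : ℓ.Prime) (hℓM : ¬ ℓ ∣ M) (hA : A.LiesOverPrime ℓ)
    {T : Finset (Place (ResidueField A) (modularFunctionFieldFullC (ResidueField A) M))}
    (hT : Good M A ℓ T)
    (hα : HeckeAlphaBarIntegral Kbar M ℓ) (hβ : HeckeBetaBarIntegral Kbar M ℓ)
    [HasPrincipalDivisors Kbar (FF (M * ℓ))] (P P' : Place Kbar (FF M))
    (h : heckeDivBar hα hβ (Finsupp.single P 1) P' ≠ 0) (hP' : Thr M A T P') :
    Thr M A T P := by
  haveI : Fact ℓ.Prime := ⟨hℓ⟩
  haveI := Fermat.Agent.S37.Kron.Reduce.charP_residueField A hℓ hA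
  exact thrT_T (vK_surjective hℓM) hT hℓ hℓM hA hα hβ P P' h hP'

theorem exists_good (hℓ : ℓ.Prime) (hℓM : ¬ ℓ ∣ M) (hA : A.LiesOverPrime ℓ)
    (Q₀ : Place (ResidueField A) (modularFunctionFieldFullC (ResidueField A) M)) :
    ∃ T : Finset (Place (ResidueField A) (modularFunctionFieldFullC (ResidueField A) M)),
      Q₀ ∈ T ∧ Good M A ℓ T := by
  haveI : Fact ℓ.Prime := ⟨hℓ⟩
  haveI := Fermat.Agent.S37.Kron.Reduce.charP_residueField A hℓ hA
  haveI := Fermat.Agent.S37.Kron.GaussNorm.isAlgClosed_residueField A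
  exact exists_goodT (vK_fibre_finite hℓM) (GoodSetK.exists_frobStable_residue A hA) Q₀

end Fields

end

end Fermat.Agent.S37.Support.ThrTK
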