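/-
S37 (project E), support control (SC), generic-fibre part (S1)+(S2)+(S3) of row 463 (helper9).

GENERIC (`T = ψ_* φ^*` a correspondence on divisors of function fields):
* `correspondence_single_apply` : `T(P)(P')` is a sum of nonnegative terms indexed by the places `W`
  of the upper field over `P` (along `φ`), the term of `W` being nonzero iff `W` lies over `P'`
  (along `ψ`);
* `correspondence_single_nonneg`, `exists_of_correspondence_single_ne_zero`,
  `correspondence_single_pos_of_exists`, `correspondence_single_ne_zero_iff`;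
* `correspondence_apply_eq_sum` : `T(D)(P') = ∑_P D(P) · T(P)(P')`.

MODULAR (`T_ℓ = α_* β^*` on `F_M` over `ℚ̄`, `ℓ ∤ M` prime):
* `ord_J_neg_iff_ord_Jd_neg` : on `F_{Mℓ}` the functions `J` and `J_ℓ` have the same poles
  (`J_ℓ` is integral over `ℚ̄[J]`, and conversely by the Atkin-Lehner involution);
* `cusp_iff_of_neighbour` : **cusps go to cusps**: if `T_ℓ(P)(P') ≠ 0` then `P` is a pole of `J`
  iff `P'` is;
* `ord_heckeNorm_pos` : **(S3)** if `T_ℓ(P)(P') ≠ 0` and `J(P) = c` (i.e. `0 < ord_P (J - c)`), then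
  `0 < ord_{P'} (N_α(β(J - c)))`.
-/
import Mathlib
import Fermat.Agent.S37.Key.HeckeNormDiv
import Fermat.Agent.S37.Kron.AtkinLehner
import Fermat.Agent.S24.InvRat
import Fermat.Agent.S24.FFDeriv
import Fermat.Agent.S24.FiniteFibres
import Fermat.Agent.S18.Core.Charts

set_option autoImplicit false
set_option linter.style.haveILetI false
set_option linter.unusedSectionVars false

noncomputable section

namespace Fermat.Agent.S37.Support.Neighbours

open AlgebraicCurve ModularCurve

/-! ### generic correspondences -/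

section Generic

variable {K F F' : Type*} [Field K] [Field F] [Field F'] [Algebra K F] [Algebra K F']
variable [HasPrincipalDivisors K F']
variable (φ ψ : F →ₐ[K] F') (hφ : φ.toRingHom.IsIntegral) (hψ : ψ.toRingHom.IsIntegral)

omit [HasPrincipalDivisors K F'] in
include hφ in
theorem ramificationIndexAlong_pos (W : Place K F') : 0 < W.ramificationIndexAlong φ := by
  letI := algebraAlong φ
  haveI := isScalarTower_along φ
  haveI := isIntegral_along φ hφ
  exact W.ramificationIndex_pos (F := F)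

omit [HasPrincipalDivisors K F'] in
theorem inertiaDegAlong_ne_zero (hdeg : ∀ W : Place K F', W.deg ≠ 0) (W : Place K F') :
    W.inertiaDegAlong ψ hψ ≠ 0 := by
  letI := algebraAlong ψ
  haveI := isScalarTower_along ψ
  haveI := isIntegral_along ψ hψ
  intro h0
  have h1 := W.deg_restrict_mul_inertiaDeg (F := F)
  change W.inertiaDeg F = 0 at h0
  rw [h0, mul_zero] at h1
  exact hdeg W h1.symm

open scoped Classical in
/-- the value of `ψ_* φ^* (P)` at `P'`: a sum over the places `W` above `P` (along `φ`). -/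
theorem correspondence_single_apply (P P' : Place K F) :
    Divisor.correspondence φ ψ hφ hψ (Finsupp.single P 1) P' =
      ∑ W ∈ Place.fiberAlong φ hφ P,
        if W.restrictAlong ψ hψ = P' then
          ((W.ramificationIndexAlong φ : ℤ) * (W.inertiaDegAlong ψ hψ : ℤ)) else 0 := by
  rw [Divisor.correspondence_apply, Divisor.pullbackAlong_single, map_sum, Finsupp.finsetSum_apply]
  refine Finset.sum_congr rfl fun W _ => ?_
  rw [Divisor.pushforwardAlong_single, Finsupp.single_apply, one_mul]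

/-- `T(P)` is effective. -/
theorem correspondence_single_nonneg (P P' : Place K F) :
    0 ≤ Divisor.correspondence φ ψ hφ hψ (Finsupp.single P 1) P' := by
  classical
  rw [correspondence_single_apply]
  refine Finset.sum_nonneg fun W _ => ?_
  split_ifs
  · positivity
  · exact le_rfl

/-- a place in the support of `T(P)` is the `ψ`-image of a place over `P`. -/
theorem exists_of_correspondence_single_ne_zero {P P' : Place K F}
    (h : Divisor.correspondence φ ψ hφ hψ (Finsupp.single P 1) P' ≠ 0) :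
    ∃ W : Place K F', W.restrictAlong φ hφ = P ∧ W.restrictAlong ψ hψ = P' := by
  classical
  rw [correspondence_single_apply] at h
  obtain ⟨W, hW, hne⟩ := Finset.exists_ne_zero_of_sum_ne_zero h
  refine ⟨W, Place.mem_fiberAlong.mp hW, ?_⟩
  by_contra hcon
  exact hne (if_neg hcon)

/-- conversely the `ψ`-image of a place over `P` lies in the support of `T(P)`. -/
theorem correspondence_single_pos_of_exists (hdeg : ∀ W : Place K F', W.deg ≠ 0)
    {P P' : Place K F} (W : Place K F') (h1 : W.restrictAlong φ hφ = P)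
    (h2 : W.restrictAlong ψ hψ = P') :
    0 < Divisor.correspondence φ ψ hφ hψ (Finsupp.single P 1) P' := by
  classical
  rw [correspondence_single_apply]
  have hW : W ∈ Place.fiberAlong φ hφ P := Place.mem_fiberAlong.mpr h1
  have hterm : (0 : ℤ) < (if W.restrictAlong ψ hψ = P' then
      ((W.ramificationIndexAlong φ : ℤ) * (W.inertiaDegAlong ψ hψ : ℤ)) else 0) := by
    rw [if_pos h2]
    have ha := ramificationIndexAlong_pos φ hφ W
    have hb := Nat.pos_of_ne_zero (inertiaDegAlong_ne_zero ψ hψ hdeg W)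
    positivity
  refine lt_of_lt_of_le hterm
    (Finset.single_le_sum (f := fun W : Place K F' => if W.restrictAlong ψ hψ = P' then
      ((W.ramificationIndexAlong φ : ℤ) * (W.inertiaDegAlong ψ hψ : ℤ)) else 0)
      (fun W' _ => ?_) hW)
  show (0 : ℤ) ≤ if W'.restrictAlong ψ hψ = P' then
      ((W'.ramificationIndexAlong φ : ℤ) * (W'.inertiaDegAlong ψ hψ : ℤ)) else 0
  split_ifs
  · positivity
  · exact le_rfl

/-- **(S1)** the support of `T(P)`. -/
theorem correspondence_single_ne_zero_iff (hdeg : ∀ W : Place K F', W.deg ≠ 0)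
    (P P' : Place K F) :
    Divisor.correspondence φ ψ hφ hψ (Finsupp.single P 1) P' ≠ 0 ↔
      ∃ W : Place K F', W.restrictAlong φ hφ = P ∧ W.restrictAlong ψ hψ = P' :=
  ⟨exists_of_correspondence_single_ne_zero φ ψ hφ hψ,
    fun ⟨W, h1, h2⟩ => (correspondence_single_pos_of_exists φ ψ hφ hψ hdeg W h1 h2).ne'⟩

/-- `T(D)(P') = ∑_P D(P) · T(P)(P')`. -/
theorem correspondence_apply_eq_sum (D : Divisor K F) (P' : Place K F) :
    Divisor.correspondence φ ψ hφ hψ D P' =
      ∑ P ∈ D.support, D P * Divisor.correspondence φ ψ hφ hψ (Finsupp.single P 1) P' := by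
  conv_lhs => rw [← Finsupp.sum_single D]
  rw [Finsupp.sum, map_sum, Finsupp.finsetSum_apply]
  refine Finset.sum_congr rfl fun P _ => ?_
  have : (Finsupp.single P (D P) : Divisor K F) = (D P) • Finsupp.single P (1 : ℤ) := by
    rw [Finsupp.smul_single, smul_eq_mul, mul_one]
  rw [this, map_zsmul, Finsupp.smul_apply, smul_eq_mul]

end Generic

/-! ### integrality and poles -/

section Integral

open Polynomial

variable {K F : Type*} [Field K] [Field F] [Algebra K F]

/-- an element integral over `K[x]` is regular at every place where `x` is. -/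
theorem ord_nonneg_of_isIntegral (W : Place K F) {x y : F}
    (hy : IsIntegral (Algebra.adjoin K {x}) y) (hx : 0 ≤ W.ord x) : 0 ≤ W.ord y := by
  have hxW : x ∈ W.toValuationSubring := (Fermat.Agent.S24.FFDeriv.mem_iff_ord_nonneg W).mpr hx
  refine (Fermat.Agent.S24.FFDeriv.mem_iff_ord_nonneg W).mp
    (Fermat.Agent.S18.Core.Charts.mem_of_isIntegral_of_le W.toValuationSubring (fun a ha => ?_) hy)
  induction ha using Algebra.adjoin_induction with
  | mem z hz => rw [Set.mem_singleton_iff] at hz; rw [hz]; exact hxW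
  | algebraMap r => exact W.algebraMap_mem' r
  | add a b _ _ ha hb => exact W.toValuationSubring.add_mem _ _ ha hb
  | mul a b _ _ ha hb => exact W.toValuationSubring.mul_mem _ _ ha hb

/-- transport of integrality over `K[x]` along a ring endomorphism fixing `K`. -/
theorem isIntegral_adjoin_map (w : F →+* F) (hw : ∀ a : K, w (algebraMap K F a) = algebraMap K F a)
    {x y : F} (h : IsIntegral (Algebra.adjoin K {x}) y) :
    IsIntegral (Algebra.adjoin K {w x}) (w y) := by
  rw [Fermat.Agent.S18.Core.Charts.isIntegral_adjoin_iff] at h ⊢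
  obtain ⟨q, hq, hqy⟩ := h
  have h1 : w.comp ((aeval x : K[X] →ₐ[K] F) : K[X] →+* F) =
      ((aeval (w x) : K[X] →ₐ[K] F) : K[X] →+* F) := by
    apply Polynomial.ringHom_ext
    · intro r
      show w (aeval x (C r)) = aeval (w x) (C r)
      rw [aeval_C, aeval_C, hw]
    · show w (aeval x X) = aeval (w x) X
      rw [aeval_X, aeval_X]
  refine ⟨q, hq, ?_⟩
  rw [← h1, ← Polynomial.hom_eval₂, hqy, map_zero]

end Integral

/-! ### the modular correspondence `T_ℓ` -/

section Modular

open Fermat.Agent.S24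
open Fermat.Agent.S24.BridgeInv (Kbar FF Jd)
open Fermat.Agent.S24.PlaceAt (J)
open Fermat.Agent.S37.HeckeInputs Fermat.Agent.S37.Kron.GaussNormModular
open Fermat.Agent.S37.Key.HeckeNormDiv

variable (M ℓ : ℕ) [NeZero M] [NeZero ℓ]

/-- **On `F_{Mℓ}` the functions `J` and `J_ℓ` have the same poles.** -/
theorem ord_J_neg_iff_ord_Jd_neg (hℓ : ℓ.Prime) (hℓM : ¬ ℓ ∣ M) (W : Place Kbar (FF (M * ℓ))) :
    W.ord (J (M * ℓ)) < 0 ↔ W.ord (Jd (M * ℓ) ℓ (dvd_mul_left ℓ M)) < 0 := by
  have hJℓ : IsIntegral (Algebra.adjoin Kbar {J (M * ℓ)}) (Jd (M * ℓ) ℓ (dvd_mul_left ℓ M)) :=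
    InvRat.isIntegral_Jd (BridgePhi.isBridge_PhiBar (M * ℓ)) ℓ (dvd_mul_left ℓ M)
  obtain ⟨w, hwK, hwα, hwβ, -⟩ := Fermat.Agent.S37.Kron.AtkinLehner.exists_atkinLehner M ℓ hℓ hℓM
  have hJ : IsIntegral (Algebra.adjoin Kbar {Jd (M * ℓ) ℓ (dvd_mul_left ℓ M)}) (J (M * ℓ)) := by
    have h1 := isIntegral_adjoin_map (K := Kbar) (w : FF (M * ℓ) →+* FF (M * ℓ)) hwK hJℓ
    have e1 : (w : FF (M * ℓ) →+* FF (M * ℓ)) (J (M * ℓ)) = Jd (M * ℓ) ℓ (dvd_mul_left ℓ M) := by
      show w (J (M * ℓ)) = _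
      rw [← heckeAlphaBar_J, hwα, heckeBetaBar_J]
    have e2 : (w : FF (M * ℓ) →+* FF (M * ℓ)) (Jd (M * ℓ) ℓ (dvd_mul_left ℓ M)) = J (M * ℓ) := by
      show w (Jd (M * ℓ) ℓ (dvd_mul_left ℓ M)) = _
      rw [← heckeBetaBar_J, hwβ, heckeAlphaBar_J]
    rwa [e1, e2] at h1
  constructor
  · intro h
    by_contra hcon
    have := ord_nonneg_of_isIntegral W hJ (not_lt.mp hcon)
    omega
  · intro h
    by_contra hcon
    have := ord_nonneg_of_isIntegral W hJℓ (not_lt.mp hcon)
    omega

/-- the Hecke correspondence on divisors of `F_M` -/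
abbrev Tℓ : Divisor Kbar (FF M) →+ Divisor Kbar (FF M) :=
  haveI := hasPrincipalDivisors_bar (M * ℓ)
  heckeDivBar (heckeAlphaBarIntegral M ℓ) (heckeBetaBarIntegral M ℓ)

theorem Tℓ_eq :
    Tℓ M ℓ = (haveI := hasPrincipalDivisors_bar (M * ℓ)
      Divisor.correspondence (heckeBetaBar Kbar M ℓ) (heckeAlphaBar Kbar M ℓ)
        (heckeBetaBarIntegral M ℓ) (heckeAlphaBarIntegral M ℓ)) := rfl

/-- `Tℓ` is the Prelude's `heckeDivBar` for ANY choice of the side conditions (so it is
`Key.InterfaceOf.Tdiv M ℓ` by `rfl`). -/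
theorem Tℓ_eq_heckeDivBar [HasPrincipalDivisors Kbar (FF (M * ℓ))]
    (hα : HeckeAlphaBarIntegral Kbar M ℓ) (hβ : HeckeBetaBarIntegral Kbar M ℓ) :
    Tℓ M ℓ = heckeDivBar hα hβ :=
  rfl

/-- **(S1), modular form**: the support of `T_ℓ(P)`. -/
theorem Tℓ_single_ne_zero_iff (P P' : Place Kbar (FF M)) :
    Tℓ M ℓ (Finsupp.single P 1) P' ≠ 0 ↔
      ∃ W : Place Kbar (FF (M * ℓ)),
        W.restrictAlong (heckeBetaBar Kbar M ℓ) (heckeBetaBarIntegral M ℓ) = P ∧
        W.restrictAlong (heckeAlphaBar Kbar M ℓ) (heckeAlphaBarIntegral M ℓ) = P' := by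
  haveI := hasPrincipalDivisors_bar (M * ℓ)
  exact correspondence_single_ne_zero_iff _ _ _ _
    (fun W => by rw [deg_eq_one_bar]; exact one_ne_zero) P P'

theorem Tℓ_single_nonneg (P P' : Place Kbar (FF M)) : 0 ≤ Tℓ M ℓ (Finsupp.single P 1) P' := by
  haveI := hasPrincipalDivisors_bar (M * ℓ)
  exact correspondence_single_nonneg _ _ _ _ P P'

theorem Tℓ_apply_eq_sum (D : Divisor Kbar (FF M)) (P' : Place Kbar (FF M)) :
    Tℓ M ℓ D P' = ∑ P ∈ D.support, D P * Tℓ M ℓ (Finsupp.single P 1) P' := by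
  haveI := hasPrincipalDivisors_bar (M * ℓ)
  exact correspondence_apply_eq_sum _ _ _ _ D P'

/-- for a place `W` of `F_{Mℓ}`: its `β`-image is a cusp iff its `α`-image is. -/
theorem ord_J_neg_restrict_iff (hℓ : ℓ.Prime) (hℓM : ¬ ℓ ∣ M) (W : Place Kbar (FF (M * ℓ))) :
    (W.restrictAlong (heckeBetaBar Kbar M ℓ) (heckeBetaBarIntegral M ℓ)).ord (J M) < 0 ↔
      (W.restrictAlong (heckeAlphaBar Kbar M ℓ) (heckeAlphaBarIntegral M ℓ)).ord (J M) < 0 := by
  have hβ := Place.ord_restrictAlong (heckeBetaBar Kbar M ℓ) (heckeBetaBarIntegral M ℓ) W (J M)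
  have hα := Place.ord_restrictAlong (heckeAlphaBar Kbar M ℓ) (heckeAlphaBarIntegral M ℓ) W (J M)
  rw [heckeBetaBar_J] at hβ
  rw [heckeAlphaBar_J] at hα
  have eβ := ramificationIndexAlong_pos (heckeBetaBar Kbar M ℓ) (heckeBetaBarIntegral M ℓ) W
  have eα := ramificationIndexAlong_pos (heckeAlphaBar Kbar M ℓ) (heckeAlphaBarIntegral M ℓ) W
  have key := ord_J_neg_iff_ord_Jd_neg M ℓ hℓ hℓM W
  rw [hβ, hα] at key
  have eβ' : (0 : ℤ) < (W.ramificationIndexAlong (heckeBetaBar Kbar M ℓ) : ℤ) := by exact_mod_cast eβ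
  have eα' : (0 : ℤ) < (W.ramificationIndexAlong (heckeAlphaBar Kbar M ℓ) : ℤ) := by exact_mod_cast eα
  constructor
  · intro h
    have h1 := key.mpr (mul_neg_of_pos_of_neg eβ' h)
    exact (pos_iff_neg_of_mul_neg h1).mp eα'
  · intro h
    have h1 := key.mp (mul_neg_of_pos_of_neg eα' h)
    exact (pos_iff_neg_of_mul_neg h1).mp eβ'

/-- **(S2) cusps go to cusps.** -/
theorem cusp_iff_of_neighbour (hℓ : ℓ.Prime) (hℓM : ¬ ℓ ∣ M) {P P' : Place Kbar (FF M)}
    (hT : Tℓ M ℓ (Finsupp.single P 1) P' ≠ 0) : P.ord (J M) < 0 ↔ P'.ord (J M) < 0 := by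
  obtain ⟨W, h1, h2⟩ := (Tℓ_single_ne_zero_iff M ℓ P P').mp hT
  have := ord_J_neg_restrict_iff M ℓ hℓ hℓM W
  rwa [h1, h2] at this

/-- `x` and `x - c` (`c` a constant) have the same poles. -/
theorem ord_sub_const_nonneg_iff {K F : Type*} [Field K] [Field F] [Algebra K F] (W : Place K F)
    (x : F) (c : K) : 0 ≤ W.ord (x - algebraMap K F c) ↔ 0 ≤ W.ord x := by
  rw [← FFDeriv.mem_iff_ord_nonneg, ← FFDeriv.mem_iff_ord_nonneg]
  constructor
  · intro h
    have := W.toValuationSubring.add_mem _ _ h (W.algebraMap_mem' c)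
    rwa [sub_add_cancel] at this
  · intro h
    exact sub_mem h (W.algebraMap_mem' c)

/-- **(S3)** if `P'` is a `T_ℓ`-neighbour of `P` and `J(P) = c`, then the Hecke norm of `J - c`
vanishes at `P'`. -/
theorem ord_heckeNorm_pos (hℓ : ℓ.Prime) (hℓM : ¬ ℓ ∣ M) {P P' : Place Kbar (FF M)}
    (hT : Tℓ M ℓ (Finsupp.single P 1) P' ≠ 0) (c : Kbar)
    (hP : 0 < P.ord (J M - algebraMap Kbar (FF M) c)) :
    0 < P'.ord (heckeNorm M ℓ (J M - algebraMap Kbar (FF M) c)) := by
  set z : FF M := J M - algebraMap Kbar (FF M) c with hz_def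
  have hz : z ≠ 0 := by
    intro h0
    rw [h0, Place.ord_zero] at hP
    exact lt_irrefl _ hP
  obtain ⟨D, hD⟩ := exists_div M hz
  have key : Tℓ M ℓ D P' = P'.ord (heckeNorm M ℓ z) := heckeDivBar_apply_eq_ord M ℓ hz hD P'
  rw [← key, Tℓ_apply_eq_sum]
  -- `P` is not a cusp, hence neither is `P'`
  have hPJ : ¬ P.ord (J M) < 0 := by
    have := (ord_sub_const_nonneg_iff P (J M) c).mp hP.le
    omega
  have hP'J : ¬ P'.ord (J M) < 0 := fun h => hPJ ((cusp_iff_of_neighbour M ℓ hℓ hℓM hT).mpr h)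
  have hPsupp : P ∈ D.support := by
    rw [Finsupp.mem_support_iff, hD P]
    exact hP.ne'
  have hnonneg : ∀ Z ∈ D.support, 0 ≤ D Z * Tℓ M ℓ (Finsupp.single Z 1) P' := by
    intro Z _
    rcases le_or_gt 0 (D Z) with h | h
    · exact mul_nonneg h (Tℓ_single_nonneg M ℓ Z P')
    · -- `Z` is a pole of `J - c`, i.e. a cusp; so `P'` is not a neighbour of `Z`
      have hZ : Z.ord (J M) < 0 := by
        by_contra hcon
        have := (ord_sub_const_nonneg_iff Z (J M) c).mpr (not_lt.mp hcon)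
        rw [← hz_def, ← hD Z] at this
        omega
      have h0 : Tℓ M ℓ (Finsupp.single Z 1) P' = 0 := by
        by_contra hne
        exact hP'J ((cusp_iff_of_neighbour M ℓ hℓ hℓM hne).mp hZ)
      rw [h0, mul_zero]
  have hterm : 0 < D P * Tℓ M ℓ (Finsupp.single P 1) P' := by
    refine mul_pos ?_ (lt_of_le_of_ne (Tℓ_single_nonneg M ℓ P P') (Ne.symm hT))
    rw [hD P]
    exact hP
  exact lt_of_lt_of_le hterm
    (Finset.single_le_sum (f := fun Z => D Z * Tℓ M ℓ (Finsupp.single Z 1) P') hnonneg hPsupp)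

end Modular

end Fermat.Agent.S37.Support.Neighbours
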